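/-
PROJECT R (S43), block L1, brick Rho/Feed/Base (helper27): BASE CHANGE OF A HECKE–GALOIS MODULE.

Abstract.  `R → O` commutative rings (think `ℤ_[p] → 𝒪`), `Λ` an `R`-module with endomorphisms.
`bc := Module.End.baseChangeHom R O Λ : End_R Λ →ₐ[R] End_O (O ⊗[R] Λ)` is an algebra
homomorphism, so every relation between endomorphisms of `Λ` holds between their base changes:

* `rO r` : the base change of a representation `r : G →* End_R Λ`; `rO_apply_tmul`;
* `commute_bc`, `es_bc` (the Eichler–Shimura relation), `cube_bc` (the gate cubic), `eq_one_bc`;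
* `smallEnd_bc` : `g Λ ⊆ I Λ ⟹ (bc g) (O ⊗ Λ) ⊆ (I O) (O ⊗ Λ)`;
* `cont_bc` : `(∀ v, f v - v ∈ Iⁿ Λ) ⟹ ∀ w, bc f w - w ∈ I₀ⁿ (O ⊗ Λ)` when `I O ⊆ I₀`
  (adic continuity is preserved);
* `exists_finite_fixing_of_finite` : finitely many points with open stabilisers are fixed by one
  open subgroup (any action of `G_ℚ`).
-/
import Mathlib
import Fermat.Agent.S31.Core

set_option autoImplicit false
set_option linter.unusedSectionVars false

noncomputable section

namespace Fermat.Agent.S43.Rho.Feed.Base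

open TensorProduct
open Fermat.Agent.S31.Core (smallEnd mem_smallEnd)

section BaseChange

variable (R : Type*) [CommRing R] (O : Type*) [CommRing O] [Algebra R O]
  (Λ : Type*) [AddCommGroup Λ] [Module R Λ]

/-- Base change of endomorphisms, as an algebra homomorphism. -/
abbrev bc : Module.End R Λ →ₐ[R] Module.End O (O ⊗[R] Λ) := Module.End.baseChangeHom R O Λ

variable {R Λ}

theorem bc_apply_tmul (f : Module.End R Λ) (a : O) (v : Λ) :
    bc R O Λ f (a ⊗ₜ[R] v) = a ⊗ₜ[R] f v := rfl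

/-- The base change of a representation. -/
def rO {G : Type*} [Monoid G] (r : G →* Module.End R Λ) : G →* Module.End O (O ⊗[R] Λ) :=
  ((bc R O Λ : Module.End R Λ →ₐ[R] Module.End O (O ⊗[R] Λ)) :
    Module.End R Λ →* Module.End O (O ⊗[R] Λ)).comp r

theorem rO_apply {G : Type*} [Monoid G] (r : G →* Module.End R Λ) (g : G) :
    rO O r g = bc R O Λ (r g) := rfl

theorem rO_apply_tmul {G : Type*} [Monoid G] (r : G →* Module.End R Λ) (g : G) (a : O) (v : Λ) :
    rO O r g (a ⊗ₜ[R] v) = a ⊗ₜ[R] r g v := rfl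

theorem commute_bc {f g : Module.End R Λ} (h : Commute f g) :
    Commute (bc R O Λ f) (bc R O Λ g) := h.map (bc R O Λ)

theorem eq_one_bc {f : Module.End R Λ} (h : f = 1) : bc R O Λ f = 1 := by rw [h, map_one]

/-- The Eichler–Shimura relation is preserved by base change. -/
theorem es_bc {x a : Module.End R Λ} {ℓ : ℕ}
    (h : x * x - a * x + ((ℓ : ℕ) : Module.End R Λ) = 0) :
    bc R O Λ x * bc R O Λ x - bc R O Λ a * bc R O Λ x + ((ℓ : ℕ) : Module.End O (O ⊗[R] Λ)) = 0 := by
  have h1 := congrArg (bc R O Λ) h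
  rw [map_add, map_sub, map_mul, map_mul, map_natCast, map_zero] at h1
  exact h1

/-- The gate cubic is preserved by base change. -/
theorem cube_bc {x u v : Module.End R Λ} (h : (x - u) * (x - u) * (x - v) = 0) :
    (bc R O Λ x - bc R O Λ u) * (bc R O Λ x - bc R O Λ u) * (bc R O Λ x - bc R O Λ v) = 0 := by
  have h1 := congrArg (bc R O Λ) h
  rw [map_mul, map_mul, map_sub, map_sub, map_zero] at h1
  exact h1

/-- `a ⊗ -` maps `I Λ` into `(I O) (O ⊗ Λ)`. -/
theorem tmul_mem_map_smul_top (I : Ideal R) (a : O) {v : Λ}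
    (hv : v ∈ I • (⊤ : Submodule R Λ)) :
    a ⊗ₜ[R] v ∈ (I.map (algebraMap R O)) • (⊤ : Submodule O (O ⊗[R] Λ)) := by
  refine Submodule.smul_induction_on
    (p := fun v => a ⊗ₜ[R] v ∈ (I.map (algebraMap R O)) • (⊤ : Submodule O (O ⊗[R] Λ))) hv ?_ ?_
  · intro i hi y _
    have h1 : a ⊗ₜ[R] (i • y) = algebraMap R O i • (a ⊗ₜ[R] y) := by
      rw [TensorProduct.tmul_smul, algebraMap_smul]
    rw [h1]
    exact Submodule.smul_mem_smul (Ideal.mem_map_of_mem _ hi) Submodule.mem_top
  · intro x y hx hy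
    rw [TensorProduct.tmul_add]
    exact Submodule.add_mem _ hx hy

/-- Small endomorphisms stay small after base change. -/
theorem smallEnd_bc (I : Ideal R) {g : Module.End R Λ} (hg : g ∈ smallEnd (V := Λ) I) :
    bc R O Λ g ∈ smallEnd (V := O ⊗[R] Λ) (I.map (algebraMap R O)) := by
  intro w
  induction w using TensorProduct.induction_on with
  | zero =>
    rw [map_zero]
    exact Submodule.zero_mem _
  | tmul a v =>
    rw [bc_apply_tmul]
    exact tmul_mem_map_smul_top O I a (hg v)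
  | add x y hx hy =>
    rw [map_add]
    exact Submodule.add_mem _ hx hy

/-- **Adic continuity is preserved by base change.** -/
theorem cont_bc (I : Ideal R) (I₀ : Ideal O) (hI : I.map (algebraMap R O) ≤ I₀) (n : ℕ)
    {f : Module.End R Λ} (hf : ∀ v, f v - v ∈ (I ^ n) • (⊤ : Submodule R Λ)) (w : O ⊗[R] Λ) :
    bc R O Λ f w - w ∈ (I₀ ^ n) • (⊤ : Submodule O (O ⊗[R] Λ)) := by
  have h1 : f - 1 ∈ smallEnd (V := Λ) (I ^ n) := fun v => by
    rw [LinearMap.sub_apply, Module.End.one_apply]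
    exact hf v
  have h2 := smallEnd_bc O (I ^ n) h1 w
  rw [map_sub, map_one, LinearMap.sub_apply, Module.End.one_apply, Ideal.map_pow] at h2
  exact Submodule.smul_mono_left (Ideal.pow_right_mono hI n) h2

/-- The ideal generated by `π` goes into `I₀` as soon as `π` does. -/
theorem map_span_singleton_le {π : R} {I₀ : Ideal O} (hπ : algebraMap R O π ∈ I₀) :
    (Ideal.span {π}).map (algebraMap R O) ≤ I₀ := by
  rw [Ideal.map_span, Set.image_singleton, Ideal.span_le, Set.singleton_subset_iff]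
  exact hπ

end BaseChange

/-! ### Uniform open stabilisers -/

section Stab

local notation "Qbar" => AlgebraicClosure ℚ
local notation "GQ" => (AlgebraicClosure ℚ ≃ₐ[ℚ] AlgebraicClosure ℚ)

/-- Finitely many points with open stabilisers are fixed by one open subgroup. -/
theorem exists_finite_fixing_of_finite {X : Type*} [MulAction GQ X] {s : Set X} (hs : s.Finite)
    (hpt : ∀ x ∈ s, ∃ L : IntermediateField ℚ Qbar, FiniteDimensional ℚ L ∧
      ∀ σ : GQ, (∀ a ∈ L, σ a = a) → σ • x = x) :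
    ∃ L : IntermediateField ℚ Qbar, FiniteDimensional ℚ L ∧
      ∀ σ : GQ, (∀ a ∈ L, σ a = a) → ∀ x ∈ s, σ • x = x := by
  induction s, hs using Set.Finite.induction_on with
  | empty =>
    exact ⟨⊥, inferInstance, fun σ _ x hx => (Set.notMem_empty x hx).elim⟩
  | @insert y s _ _ ih =>
    obtain ⟨L₁, hL₁, h₁⟩ := ih fun x hx => hpt x (Set.mem_insert_of_mem y hx)
    obtain ⟨L₂, hL₂, h₂⟩ := hpt y (Set.mem_insert y s)
    have := hL₁
    have := hL₂
    refine ⟨L₁ ⊔ L₂, IntermediateField.finiteDimensional_sup L₁ L₂, fun σ hσ x hx => ?_⟩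
    rcases Set.mem_insert_iff.1 hx with rfl | hx
    · exact h₂ σ fun a ha => hσ a ((le_sup_right : L₂ ≤ L₁ ⊔ L₂) ha)
    · exact h₁ σ (fun a ha => hσ a ((le_sup_left : L₁ ≤ L₁ ⊔ L₂) ha)) x hx

end Stab

end Fermat.Agent.S43.Rho.Feed.Base
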