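/-
PROJECT R (S43), block L1, brick Rho/Feed/Inst (helper27): THE ADAPTER L0 ⟹ L1.

From helper11's module of record `LamH M m p H` (a `ℤ_[p]`-module, `JH/Part`) to the `O`-linear
hypotheses of the density datum (`Rho/Dens`, `Rho/LamDatum`), `O` any commutative `ℤ_[p]`-algebra.

Over `ℤ_[p]`:
* `finite_pow_torsionTw`, `exists_finite_fixing_torsionTw` : one open subgroup fixes `J1tw M m [pⁿ]`;
* `contTw` : adic continuity of `galTw` on `TpTw M m p`;
* `contH` : adic continuity of `galH` on `LamH M m p H` (`p ∤ |H|`, through `projH`).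

Over `O` (`LamO := O ⊗[ℤ_[p]] LamH M m p H`, `rO`, `tO ℓ`, `dO d` the base changes of `galH`,
`heckeH ℓ`, `diaH d`; `eps := cycChar p (algebraMap ℤ_[p] O)`):
* `finite_LamO`, `free_LamO` (`5 ≤ M`);
* `cont_rO` (the field `cont_r` of `Dens.Datum`, verbatim), `cont_eps`, `frob_eps`;
* `commute_tO_rO`, `commute_tO_tO`, `commute_dO_rO`, `commute_tO_dO`;
* `esO` : `rO τ * rO τ - tO ℓ * rO τ + ℓ = 0` at every Frobenius element `τ` at `ℓ ∤ M p`
  (under `∀ d, d ^ (2 m + 1) ∈ H`), and `es0O` for the canonical choice `Lam0 M p` (`p` odd);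
* `unramO` : inertia at `ℓ ∤ M p` acts trivially.
-/
import Mathlib
import Fermat.Agent.S43.Rho.Feed.Base
import Fermat.Agent.S43.JH.Part
import Fermat.Agent.S30.Algebra.Cyclotomic
import Fermat.Agent.S30.Arith.TorsionFinite

set_option autoImplicit false
set_option linter.unusedSectionVars false

noncomputable section

namespace Fermat.Agent.S43.Rho.Feed.Inst

open TensorProduct
open Fermat.Agent.S48.B.Defs.Model
open Fermat.Agent.S30.Padic.TateModule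
open Fermat.Agent.S43.Tw.Defs (J1tw toTw ofTw)
open Fermat.Agent.S43.JH.Tw Fermat.Agent.S43.JH.Part
open Fermat.Agent.S43.Rho.Feed.Base
open Fermat.Agent.S30.Algebra.Cyclotomic (cycChar cycChar_continuous cycChar_isFrobeniusAt)

local notation "Qbar" => AlgebraicClosure ℚ
local notation "GQ" => (AlgebraicClosure ℚ ≃ₐ[ℚ] AlgebraicClosure ℚ)

variable (M : ℕ) [NeZero M] (m : ℕ) (p : ℕ) [hp : Fact p.Prime]

/-! ### Over `ℤ_[p]` -/

/-- the `pⁿ`-torsion of `J1tw M m` is finite (`5 ≤ M`) -/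
theorem finite_pow_torsionTw (hM : 5 ≤ M) (n : ℕ) : {y : J1tw M m | p ^ n • y = 0}.Finite := by
  have h1 : {y : J1tw M m | p • y = 0}.Finite :=
    Fermat.Agent.S43.JH.Restrict.finite_torsion M p hM
  exact Fermat.Agent.S30.Arith.TorsionFinite.finite_pow_torsion p h1 n

/-- one open subgroup fixes the `pⁿ`-torsion of `J1tw M m` -/
theorem exists_finite_fixing_torsionTw (hM : 5 ≤ M) (n : ℕ) :
    ∃ L : IntermediateField ℚ Qbar, FiniteDimensional ℚ L ∧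
      ∀ σ : GQ, (∀ a ∈ L, σ a = a) → ∀ y : J1tw M m, p ^ n • y = 0 → σ • y = y :=
  exists_finite_fixing_of_finite (finite_pow_torsionTw M m p hM n) fun y _ => smoothTw M m y

/-- **adic continuity of the twisted Galois action on `TpTw M m p`** -/
theorem contTw (hM : 5 ≤ M) (n : ℕ) :
    ∃ L : IntermediateField ℚ Qbar, FiniteDimensional ℚ L ∧
      ∀ u : GQ, (∀ x ∈ L, u x = x) → ∀ v : TpTw M m p,
        ∃ y : TpTw M m p, galTw M m p u v - v = ((p : ℤ_[p]) ^ n) • y := by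
  obtain ⟨L, hL, h⟩ := exists_finite_fixing_torsionTw M m p hM n
  exact ⟨L, hL, fun u hu v => Tp.exists_galoisHom_sub_eq_pow_smul (p := p) u n (h u hu) v⟩

variable (H : Subgroup (ZMod M)ˣ)

/-- **adic continuity of `galH` on `LamH M m p H`** (`p ∤ |H|`), divisibility form -/
theorem contH_exists (hM : 5 ≤ M) (hH : ¬ p ∣ Nat.card H) (n : ℕ) :
    ∃ L : IntermediateField ℚ Qbar, FiniteDimensional ℚ L ∧
      ∀ u : GQ, (∀ x ∈ L, u x = x) → ∀ v : LamH M m p H,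
        ∃ y : LamH M m p H, galH M m p H u v - v = ((p : ℤ_[p]) ^ n) • y := by
  obtain ⟨L, hL, h⟩ := contTw M m p hM n
  refine ⟨L, hL, fun u hu v => ?_⟩
  obtain ⟨y, hy⟩ := h u hu v.1
  refine ⟨projH M m p H hH y, ?_⟩
  have h1 : galH M m p H u v - v = projH M m p H hH (galTw M m p u v.1 - v.1) := by
    rw [map_sub, projH_galTw, projH_coe]
  rw [h1, hy, map_smul]

/-- **adic continuity of `galH` on `LamH M m p H`**, in the shape of `cont_r` -/
theorem contH (hM : 5 ≤ M) (hH : ¬ p ∣ Nat.card H) (n : ℕ) :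
    ∃ L : IntermediateField ℚ Qbar, FiniteDimensional ℚ L ∧
      ∀ u : GQ, (∀ x ∈ L, u x = x) → ∀ v : LamH M m p H,
        galH M m p H u v - v ∈
          (Ideal.span {(p : ℤ_[p])} ^ n) • (⊤ : Submodule ℤ_[p] (LamH M m p H)) := by
  obtain ⟨L, hL, h⟩ := contH_exists M m p H hM hH n
  refine ⟨L, hL, fun u hu v => ?_⟩
  obtain ⟨y, hy⟩ := h u hu v
  rw [hy, Ideal.span_singleton_pow, Submodule.ideal_span_singleton_smul]
  exact Submodule.smul_mem_pointwise_smul y _ ⊤ Submodule.mem_top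

/-! ### Over `O` -/

variable (O : Type*) [CommRing O] [Algebra ℤ_[p] O]

/-- the module of record over `O` -/
abbrev LamO : Type _ := O ⊗[ℤ_[p]] LamH M m p H

/-- the Galois action on `LamO` -/
def rO : GQ →* Module.End O (LamO M m p H O) := Base.rO O (galH M m p H)

/-- `T'_ℓ` on `LamO`, `ℓ ∤ M p` -/
def tO (r : Nat.Primes) (hr : (r : ℕ).Coprime M) (hrp : (r : ℕ) ≠ p) :
    Module.End O (LamO M m p H O) :=
  bc ℤ_[p] O (LamH M m p H) (heckeH M m p H r hr hrp)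

/-- `⟨d⟩_*` on `LamO` -/
def dO (d : (ZMod M)ˣ) : Module.End O (LamO M m p H O) :=
  bc ℤ_[p] O (LamH M m p H) (diaH M m p H d)

/-- the `p`-adic cyclotomic character with values in `O` -/
def eps : GQ →* O := cycChar p (algebraMap ℤ_[p] O)

theorem rO_apply_tmul (σ : GQ) (a : O) (v : LamH M m p H) :
    rO M m p H O σ (a ⊗ₜ[ℤ_[p]] v) = a ⊗ₜ[ℤ_[p]] galH M m p H σ v := rfl

theorem tO_apply_tmul (r : Nat.Primes) (hr : (r : ℕ).Coprime M) (hrp : (r : ℕ) ≠ p) (a : O)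
    (v : LamH M m p H) :
    tO M m p H O r hr hrp (a ⊗ₜ[ℤ_[p]] v) = a ⊗ₜ[ℤ_[p]] heckeH M m p H r hr hrp v := rfl

theorem dO_apply_tmul (d : (ZMod M)ˣ) (a : O) (v : LamH M m p H) :
    dO M m p H O d (a ⊗ₜ[ℤ_[p]] v) = a ⊗ₜ[ℤ_[p]] diaH M m p H d v := rfl

theorem finite_LamO (hM : 5 ≤ M) : Module.Finite O (LamO M m p H O) := by
  have := finite_LamH (M := M) (m := m) (p := p) (H := H) hM
  infer_instance

theorem free_LamO (hM : 5 ≤ M) : Module.Free O (LamO M m p H O) := by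
  have := free_LamH (M := M) (m := m) (p := p) (H := H) hM
  infer_instance

/-- **`cont_r`** : adic continuity of `rO` for every ideal `I₀` of `O` containing `p` -/
theorem cont_rO (hM : 5 ≤ M) (hH : ¬ p ∣ Nat.card H) (I₀ : Ideal O) (hpI : (p : O) ∈ I₀)
    (n : ℕ) :
    ∃ L : IntermediateField ℚ Qbar, FiniteDimensional ℚ L ∧
      ∀ u : GQ, (∀ x ∈ L, u x = x) → ∀ v : LamO M m p H O,
        rO M m p H O u v - v ∈ (I₀ ^ n) • (⊤ : Submodule O (LamO M m p H O)) := by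
  obtain ⟨L, hL, h⟩ := contH M m p H hM hH n
  refine ⟨L, hL, fun u hu v => ?_⟩
  refine cont_bc O (Ideal.span {(p : ℤ_[p])}) I₀ (map_span_singleton_le O ?_) n (h u hu) v
  rw [map_natCast]
  exact hpI

/-- **`cont_ε`** -/
theorem cont_eps (I₀ : Ideal O) (hpI : (p : O) ∈ I₀) (n : ℕ) :
    ∃ L : IntermediateField ℚ Qbar, FiniteDimensional ℚ L ∧
      ∀ u : GQ, (∀ x ∈ L, u x = x) → eps p O u - 1 ∈ I₀ ^ n :=
  cycChar_continuous p (algebraMap ℤ_[p] O) I₀ hpI n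

/-- **`frob_ε`** -/
theorem frob_eps {ℓ : ℕ} (hℓ : ℓ.Prime) (hℓp : ℓ ≠ p) (A : ValuationSubring Qbar)
    (hA : A.LiesOverPrime ℓ) (τ : GQ) (hτ : A.IsFrobeniusAt τ ℓ) : eps p O τ = (ℓ : O) :=
  cycChar_isFrobeniusAt p (algebraMap ℤ_[p] O) hℓ hℓp A hA τ hτ

theorem commute_tO_rO (r : Nat.Primes) (hr : (r : ℕ).Coprime M) (hrp : (r : ℕ) ≠ p) (σ : GQ) :
    Commute (tO M m p H O r hr hrp) (rO M m p H O σ) :=
  commute_bc O (commute_galH_heckeH M m p H σ r hr hrp).symm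

theorem commute_tO_tO (r r' : Nat.Primes) (hr : (r : ℕ).Coprime M) (hrp : (r : ℕ) ≠ p)
    (hr' : (r' : ℕ).Coprime M) (hrp' : (r' : ℕ) ≠ p) :
    Commute (tO M m p H O r hr hrp) (tO M m p H O r' hr' hrp') :=
  commute_bc O (commute_heckeH_heckeH M m p H r r' hr hr' hrp hrp')

theorem commute_dO_rO (d : (ZMod M)ˣ) (σ : GQ) :
    Commute (dO M m p H O d) (rO M m p H O σ) :=
  commute_bc O (commute_galH_diaH M m p H σ d).symm

theorem commute_tO_dO (r : Nat.Primes) (hr : (r : ℕ).Coprime M) (hrp : (r : ℕ) ≠ p)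
    (d : (ZMod M)ˣ) : Commute (tO M m p H O r hr hrp) (dO M m p H O d) :=
  commute_bc O (commute_heckeH_diaH M m p H r hr hrp d)

/-- **Eichler–Shimura over `O`** -/
theorem esO (hHm : ∀ d : (ZMod M)ˣ, d ^ (2 * m + 1) ∈ H)
    (ℓ : Nat.Primes) (hℓM : (ℓ : ℕ).Coprime M) (hℓp : (ℓ : ℕ) ≠ p)
    (A : ValuationSubring Qbar) (hA : A.LiesOverPrime ℓ) (τ : GQ) (hτ : A.IsFrobeniusAt τ ℓ) :
    rO M m p H O τ * rO M m p H O τ - tO M m p H O ℓ hℓM hℓp * rO M m p H O τ +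
      (((ℓ : ℕ) : ℕ) : Module.End O (LamO M m p H O)) = 0 := by
  have h := esH M m p H hHm ℓ hℓM hℓp A hA τ hτ
  have h1 : ((ℓ : ℕ) : ℤ_[p]) • (1 : Module.End ℤ_[p] (LamH M m p H)) =
      (((ℓ : ℕ) : ℕ) : Module.End ℤ_[p] (LamH M m p H)) := by
    rw [← Algebra.algebraMap_eq_smul_one, map_natCast]
  rw [h1] at h
  exact es_bc O h

/-- inertia at `ℓ ∤ M p` acts trivially on `LamO` -/
theorem unramO (ℓ : ℕ) (hℓ : ℓ.Prime) (hℓM : ℓ.Coprime M) (hℓp : ℓ ≠ p)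
    (A : ValuationSubring Qbar) (hA : A.LiesOverPrime ℓ) (σ : GQ)
    (hσ : σ ∈ A.inertiaSubgroupIn ℚ) : rO M m p H O σ = 1 :=
  eq_one_bc O (unramH M m p H ℓ hℓ hℓM hℓp A hA σ hσ)

/-- **Eichler–Shimura over `O` for the canonical choice** `Lam0 M p` (`p` odd) -/
theorem es0O (hp2 : p ≠ 2) (ℓ : Nat.Primes) (hℓM : (ℓ : ℕ).Coprime M) (hℓp : (ℓ : ℕ) ≠ p)
    (A : ValuationSubring Qbar) (hA : A.LiesOverPrime ℓ) (τ : GQ) (hτ : A.IsFrobeniusAt τ ℓ) :
    rO M (mTw M p) p (Hp M p) O τ * rO M (mTw M p) p (Hp M p) O τ -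
        tO M (mTw M p) p (Hp M p) O ℓ hℓM hℓp * rO M (mTw M p) p (Hp M p) O τ +
      (((ℓ : ℕ) : ℕ) : Module.End O (LamO M (mTw M p) p (Hp M p) O)) = 0 :=
  esO M (mTw M p) p (Hp M p) O (Fermat.Agent.S43.JH.PrimeToP.pow_twExp_mem hp2) ℓ hℓM hℓp A hA τ hτ

end Fermat.Agent.S43.Rho.Feed.Inst
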