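/-
S43 (row 37), PROJECT R, block L1 = `Rho/**`, file `Feed/Gate` (helper7; helper4's announced
`Rho/Feed/Gate`, released to me).

**THE GATE CUBIC ON THE LOCALISED MODULE OF RECORD.**  helper4's `Loc2/GateHH.galH_cubic_H`
(`(s' - u)² (s' - u⁻¹) = 0` on `LamH (N q) m p H`, `u = ⟨cyc s ^ m⟩`, for `s` in an inertia group at
`q`, from the `H'`-invariant gate `LG1/H/Lit.LG1HypAtH N q p H' false`) is pushed

* to `LamO = O ⊗ LamH` by helper27's `Feed/Base.cube_bc`               : `rO_cubic`, `rO_unipotent`;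
* to `LamQ = Loc 𝔪 LamO` by helper22's `LamInst.rQ_cube` (`J` only)     : `rQ_cubic`, `rQ_unipotent`;
* to `LamQ` with the diamonds in the Hecke algebra (`LamInstD.rQ_cube`) : `rQ_cubic_D`,
  `rQ_unipotent_D` (`dQ u : TQ`).

The excluded set `S₀ : Finset ℕ` of helper22's re-issued `LamInst` / `LamInstD` (the chief's ruling on
the index sets) is the explicit variable just before `𝔪`, as there.

These are the `hcube` hypotheses of `Rho/Props/{Type, TypeExt, TypeRhoT, Display}` and of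
`UnipTwo` (at `q = 2` the gate is helper11's `LG1/H/GateTwo.lg1HypAtH_two'`).
-/
import Mathlib
import Fermat.Agent.S43.Rho.LamInstD
import Fermat.Agent.S43.Loc2.GateHH

set_option autoImplicit false
set_option linter.unusedSectionVars false

noncomputable section

namespace Fermat.Agent.S43.Rho.Feed.Gate

open Fermat.Agent.S43.Rho.Feed.Inst Fermat.Agent.S43.Rho.Feed.Base
open Fermat.Agent.S43.JH.Tw Fermat.Agent.S43.JH.Part Fermat.Agent.S43.Tw.Defs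
open Fermat.Agent.S43.Loc2.GateHH Fermat.Agent.S43.LG1.H.Lit
open Fermat.Agent.S31.Core (Qbar GQ)

variable {N q : ℕ} [NeZero (N * q)] (m : ℕ) (p : ℕ) [hp : Fact p.Prime]
  {H H' : Subgroup (ZMod (N * q))ˣ} (O : Type) [CommRing O] [Algebra ℤ_[p] O]

/-! ### on `LamO = O ⊗ LamH` -/

/-- **the gate cubic on `LamO`** -/
theorem rO_cubic (hH : H' ≤ H) (hHm : ∀ d : (ZMod (N * q))ˣ, d ^ (2 * m + 1) ∈ H)
    (hq : q.Prime) (hqN : ¬ q ∣ N) (hG : LG1HypAtH N q p H' false)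
    (A : ValuationSubring Qbar) (hA : A.LiesOverPrime q) (s : GQ)
    (hs : s ∈ A.inertiaSubgroupIn ℚ) :
    (rO (N * q) m p H O s - dO (N * q) m p H O (cyc (N * q) s ^ m)) *
        (rO (N * q) m p H O s - dO (N * q) m p H O (cyc (N * q) s ^ m)) *
      (rO (N * q) m p H O s - dO (N * q) m p H O (cyc (N * q) s ^ m)⁻¹) = 0 :=
  cube_bc O (galH_cubic_H (p := p) m hH hHm hq hqN hG A hA s hs)

/-- **unipotent inertia on `LamO`** when `cyc s ^ m ∈ H` -/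
theorem rO_unipotent (hH : H' ≤ H) (hHm : ∀ d : (ZMod (N * q))ˣ, d ^ (2 * m + 1) ∈ H)
    (hq : q.Prime) (hqN : ¬ q ∣ N) (hG : LG1HypAtH N q p H' false)
    (A : ValuationSubring Qbar) (hA : A.LiesOverPrime q) (s : GQ)
    (hs : s ∈ A.inertiaSubgroupIn ℚ) (hd : cyc (N * q) s ^ m ∈ H) :
    (rO (N * q) m p H O s - 1) * (rO (N * q) m p H O s - 1) * (rO (N * q) m p H O s - 1) = 0 := by
  have h := cube_bc O (galH_unipotent_of_mem_H (p := p) m hH hHm hq hqN hG A hA s hs hd)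
  rw [map_one] at h
  exact h

/-! ### on `LamQ = Loc 𝔪 LamO`, operators `T'_r` only (`LamInst`) -/

section J

open Fermat.Agent.S43.Rho.LamInst

variable (S₀ : Finset ℕ) (𝔪 : Ideal (MvPolynomial (J (N * q) p S₀) O)) [𝔪.IsMaximal]

/-- **the gate cubic on `LamQ`** (`LamInst`: the diamonds `dQ u` are endomorphisms commuting with
the Hecke algebra) -/
theorem rQ_cubic (hH : H' ≤ H) (hHm : ∀ d : (ZMod (N * q))ˣ, d ^ (2 * m + 1) ∈ H)
    (hq : q.Prime) (hqN : ¬ q ∣ N) (hG : LG1HypAtH N q p H' false)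
    (A : ValuationSubring Qbar) (hA : A.LiesOverPrime q) (s : GQ)
    (hs : s ∈ A.inertiaSubgroupIn ℚ) :
    (rQ (N * q) m p H O S₀ 𝔪 s - dQ (N * q) m p H O S₀ 𝔪 (cyc (N * q) s ^ m)) *
        (rQ (N * q) m p H O S₀ 𝔪 s - dQ (N * q) m p H O S₀ 𝔪 (cyc (N * q) s ^ m)) *
      (rQ (N * q) m p H O S₀ 𝔪 s - dQ (N * q) m p H O S₀ 𝔪 (cyc (N * q) s ^ m)⁻¹) = 0 :=
  rQ_cube (N * q) m p H O S₀ 𝔪 s _ _ (rO_cubic m p O hH hHm hq hqN hG A hA s hs)

/-- **unipotent inertia on `LamQ`** (`LamInst`) when `cyc s ^ m ∈ H` -/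
theorem rQ_unipotent (hH : H' ≤ H) (hHm : ∀ d : (ZMod (N * q))ˣ, d ^ (2 * m + 1) ∈ H)
    (hq : q.Prime) (hqN : ¬ q ∣ N) (hG : LG1HypAtH N q p H' false)
    (A : ValuationSubring Qbar) (hA : A.LiesOverPrime q) (s : GQ)
    (hs : s ∈ A.inertiaSubgroupIn ℚ) (hd : cyc (N * q) s ^ m ∈ H) :
    (rQ (N * q) m p H O S₀ 𝔪 s - 1) * (rQ (N * q) m p H O S₀ 𝔪 s - 1) *
      (rQ (N * q) m p H O S₀ 𝔪 s - 1) = 0 := by
  have h := locComm_cube (N * q) m p H O S₀ 𝔪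
    (Fermat.Agent.S43.Rho.LamDatum.rC O (tJ (N * q) m p H O S₀) (rO (N * q) m p H O)
      (rOcomm (N * q) m p H O S₀) s) 1 1
    (Subtype.ext (by push_cast; exact rO_unipotent m p O hH hHm hq hqN hG A hA s hs hd))
  rw [map_one] at h
  exact h

end J

/-! ### on `LamQ` with the diamonds in the Hecke algebra (`LamInstD`) -/

section K

open Fermat.Agent.S43.Rho.LamInstD

variable (S₀ : Finset ℕ) (𝔪 : Ideal (MvPolynomial (K (N * q) p S₀) O)) [𝔪.IsMaximal]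

/-- **the gate cubic on `LamQ`** (`LamInstD`: `dQ u` is an ELEMENT of the Hecke algebra `TQ`) -/
theorem rQ_cubic_D (hH : H' ≤ H) (hHm : ∀ d : (ZMod (N * q))ˣ, d ^ (2 * m + 1) ∈ H)
    (hq : q.Prime) (hqN : ¬ q ∣ N) (hG : LG1HypAtH N q p H' false)
    (A : ValuationSubring Qbar) (hA : A.LiesOverPrime q) (s : GQ)
    (hs : s ∈ A.inertiaSubgroupIn ℚ) :
    (rQ (N * q) m p H O S₀ 𝔪 s -
          (dQ (N * q) m p H O S₀ 𝔪 (cyc (N * q) s ^ m) : TQ (N * q) m p H O S₀ 𝔪)) *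
        (rQ (N * q) m p H O S₀ 𝔪 s -
          (dQ (N * q) m p H O S₀ 𝔪 (cyc (N * q) s ^ m) : TQ (N * q) m p H O S₀ 𝔪)) *
      (rQ (N * q) m p H O S₀ 𝔪 s -
          (dQ (N * q) m p H O S₀ 𝔪 (cyc (N * q) s ^ m)⁻¹ : TQ (N * q) m p H O S₀ 𝔪)) = 0 :=
  rQ_cube (N * q) m p H O S₀ 𝔪 s _ _ (rO_cubic m p O hH hHm hq hqN hG A hA s hs)

/-- **unipotent inertia on `LamQ`** (`LamInstD`) when `cyc s ^ m ∈ H` -/
theorem rQ_unipotent_D (hH : H' ≤ H) (hHm : ∀ d : (ZMod (N * q))ˣ, d ^ (2 * m + 1) ∈ H)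
    (hq : q.Prime) (hqN : ¬ q ∣ N) (hG : LG1HypAtH N q p H' false)
    (A : ValuationSubring Qbar) (hA : A.LiesOverPrime q) (s : GQ)
    (hs : s ∈ A.inertiaSubgroupIn ℚ) (hd : cyc (N * q) s ^ m ∈ H) :
    (rQ (N * q) m p H O S₀ 𝔪 s - 1) * (rQ (N * q) m p H O S₀ 𝔪 s - 1) *
      (rQ (N * q) m p H O S₀ 𝔪 s - 1) = 0 := by
  have h := locComm_cube (N * q) m p H O S₀ 𝔪
    (Fermat.Agent.S43.Rho.LamDatum.rC O (tK (N * q) m p H O S₀) (rO (N * q) m p H O)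
      (rOcommK (N * q) m p H O S₀) s) 1 1
    (Subtype.ext (by push_cast; exact rO_unipotent m p O hH hHm hq hqN hG A hA s hs hd))
  rw [map_one] at h
  exact h

end K

/-! ### `q = 2` : the diamond of an inertia element is trivial -/

section Two

/-- a unit of `ℤ/2N`, `N` odd, which is `≡ 1 mod N` is `1` -/
theorem unit_eq_one_of_isOneModLeft_two {N : ℕ} [NeZero (N * 2)] (hN2 : ¬ 2 ∣ N)
    (d : (ZMod (N * 2))ˣ) (hd : Fermat.Agent.S43.Seam.IsOneModLeft N 2 d) : d = 1 := by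
  unfold Fermat.Agent.S43.Seam.IsOneModLeft at hd
  set v : ℕ := (d : ZMod (N * 2)).val with hv
  have hdv : (d : ZMod (N * 2)) = ((v : ℕ) : ZMod (N * 2)) := (ZMod.natCast_zmod_val _).symm
  have hcop : Nat.Coprime v (N * 2) := ZMod.val_coe_unit_coprime d
  have h1 : ((N : ℕ) : ℤ) ∣ (v : ℤ) - 1 := by
    rw [hdv, map_natCast] at hd
    rw [← ZMod.intCast_zmod_eq_zero_iff_dvd]
    push_cast
    rw [hd, sub_self]
  have h2 : (2 : ℤ) ∣ (v : ℤ) - 1 := by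
    have hodd : Odd v := by
      rw [← Nat.not_even_iff_odd, even_iff_two_dvd]
      intro h
      have := Nat.Coprime.coprime_dvd_left h (Nat.Coprime.coprime_mul_left_right hcop)
      norm_num at this
    obtain ⟨k, hk⟩ := hodd
    exact ⟨k, by rw [hk]; push_cast; ring⟩
  have hc : IsCoprime ((N : ℕ) : ℤ) 2 := by
    have : Nat.Coprime N 2 := (Nat.Prime.coprime_iff_not_dvd Nat.prime_two).mpr hN2 |>.symm
    exact_mod_cast Nat.isCoprime_iff_coprime.mpr this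
  have h3 : (((N * 2 : ℕ)) : ℤ) ∣ (v : ℤ) - 1 := by
    push_cast
    exact hc.mul_dvd h1 h2
  have h4 : (((v : ℤ) - 1 : ℤ) : ZMod (N * 2)) = 0 :=
    (ZMod.intCast_zmod_eq_zero_iff_dvd _ _).mpr h3
  push_cast at h4
  apply Units.ext
  rw [hdv, Units.val_one]
  exact sub_eq_zero.mp h4

/-- **the cyclotomic diamond of an inertia element at `2` is trivial** (`N` odd) -/
theorem cyc_eq_one_of_inertia_two {N : ℕ} [NeZero (N * 2)] (hN2 : ¬ 2 ∣ N)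
    (A : ValuationSubring Qbar) (hA : A.LiesOverPrime 2) (s : GQ)
    (hs : s ∈ A.inertiaSubgroupIn ℚ) : cyc (N * 2) s = 1 :=
  unit_eq_one_of_isOneModLeft_two hN2 _
    (Fermat.Agent.S43.Loc2.Type.isOneModLeft_chi Nat.prime_two hN2 A hA s hs)

variable {N : ℕ} [NeZero (N * 2)] (m : ℕ) (p : ℕ) [hp : Fact p.Prime]
  {H H' : Subgroup (ZMod (N * 2))ˣ} (O : Type) [CommRing O] [Algebra ℤ_[p] O]

/-- **unipotent inertia at `2` on `LamQ`** (`LamInst`), no hypothesis on `H` -/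
theorem rQ_unipotent_two (S₀ : Finset ℕ)
    (𝔪 : Ideal (MvPolynomial (Fermat.Agent.S43.Rho.LamInst.J (N * 2) p S₀) O)) [𝔪.IsMaximal]
    (hH : H' ≤ H) (hHm : ∀ d : (ZMod (N * 2))ˣ, d ^ (2 * m + 1) ∈ H)
    (hN2 : ¬ 2 ∣ N) (hG : LG1HypAtH N 2 p H' false)
    (A : ValuationSubring Qbar) (hA : A.LiesOverPrime 2) (s : GQ)
    (hs : s ∈ A.inertiaSubgroupIn ℚ) :
    (Fermat.Agent.S43.Rho.LamInst.rQ (N * 2) m p H O S₀ 𝔪 s - 1) *
        (Fermat.Agent.S43.Rho.LamInst.rQ (N * 2) m p H O S₀ 𝔪 s - 1) *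
      (Fermat.Agent.S43.Rho.LamInst.rQ (N * 2) m p H O S₀ 𝔪 s - 1) = 0 :=
  rQ_unipotent m p O S₀ 𝔪 hH hHm Nat.prime_two hN2 hG A hA s hs
    (by rw [cyc_eq_one_of_inertia_two hN2 A hA s hs, one_pow]; exact H.one_mem)

/-- **unipotent inertia at `2` on `LamQ`** (`LamInstD`), no hypothesis on `H` -/
theorem rQ_unipotent_two_D (S₀ : Finset ℕ)
    (𝔪 : Ideal (MvPolynomial (Fermat.Agent.S43.Rho.LamInstD.K (N * 2) p S₀) O)) [𝔪.IsMaximal]
    (hH : H' ≤ H) (hHm : ∀ d : (ZMod (N * 2))ˣ, d ^ (2 * m + 1) ∈ H)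
    (hN2 : ¬ 2 ∣ N) (hG : LG1HypAtH N 2 p H' false)
    (A : ValuationSubring Qbar) (hA : A.LiesOverPrime 2) (s : GQ)
    (hs : s ∈ A.inertiaSubgroupIn ℚ) :
    (Fermat.Agent.S43.Rho.LamInstD.rQ (N * 2) m p H O S₀ 𝔪 s - 1) *
        (Fermat.Agent.S43.Rho.LamInstD.rQ (N * 2) m p H O S₀ 𝔪 s - 1) *
      (Fermat.Agent.S43.Rho.LamInstD.rQ (N * 2) m p H O S₀ 𝔪 s - 1) = 0 :=
  rQ_unipotent_D m p O S₀ 𝔪 hH hHm Nat.prime_two hN2 hG A hA s hs
    (by rw [cyc_eq_one_of_inertia_two hN2 A hA s hs, one_pow]; exact H.one_mem)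

end Two

end Fermat.Agent.S43.Rho.Feed.Gate

end
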