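/-
S43 (row 37), PROJECT R, block L1 = `Rho/**`, file `Feed/GateAt` (helper7).

**THE GATE CUBIC AT A VARIABLE LEVEL `M` WITH AN EQUATION `hM : M = N * q`.**

The gate side (L2, `LG1/**`, `Loc2/**`) lives at the level `N * q` AS A TERM (`J1 (N * q)`,
`LamH (N * q) m p H`, `LG1HypAtH N q p H'` with `H' : Subgroup (ZMod (N * q))ˣ`), hence so do the
theorems of `Rho/Feed/Gate`.  The Hecke side (L1, L3, the per-level theorem) lives at a VARIABLE
level `M` tied to `N₀ * ∏ Q` by an equation; for a prime `ℓ ∥ M` the gate is needed on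
`LamQ M …`, while `Gate.rQ_cubic_D` speaks of `LamQ (M / ℓ * ℓ) …` : a dependent cast.

Here the theorems of `Rho/Feed/Gate` are restated for ANY `M` with `hM : M = N * q`
(`subst` is done once, inside).  The subgroup `H'` of the gate stays on the gate side
(`H' : Subgroup (ZMod (N * q))ˣ`, e.g. `H' ≤ rPart N q` of order prime to `p`), and is compared
with `H : Subgroup (ZMod M)ˣ` through `castU hM : (ZMod (N * q))ˣ →* (ZMod M)ˣ`
(`Units.map` of `ZMod.ringEquivCongr`).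

USE at `ℓ ∥ M` : `N := M / ℓ`, `q := ℓ`, `hM := (Nat.div_mul_cancel hℓM).symm`.
-/
import Mathlib
import Fermat.Agent.S43.Rho.Feed.Gate

set_option autoImplicit false
set_option linter.unusedSectionVars false

noncomputable section

namespace Fermat.Agent.S43.Rho.Feed.GateAt

open Fermat.Agent.S43.Rho.Feed.Inst Fermat.Agent.S43.Rho.Feed.Base
open Fermat.Agent.S43.JH.Tw Fermat.Agent.S43.JH.Part Fermat.Agent.S43.Tw.Defs
open Fermat.Agent.S43.LG1.H.Lit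
open Fermat.Agent.S31.Core (Qbar GQ)

/-! ### the cast of the units -/

section Cast

variable {M N q : ℕ}

/-- the units of `ℤ/(N q)` at the level `M = N q` -/
def castU (hM : M = N * q) : (ZMod (N * q))ˣ →* (ZMod M)ˣ :=
  Units.map ((ZMod.ringEquivCongr hM.symm : ZMod (N * q) ≃+* ZMod M) : ZMod (N * q) →* ZMod M)

/-- the cast as an isomorphism -/
def castUEquiv (hM : M = N * q) : (ZMod (N * q))ˣ ≃* (ZMod M)ˣ :=
  Units.mapEquiv (ZMod.ringEquivCongr hM.symm : ZMod (N * q) ≃+* ZMod M).toMulEquiv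

theorem castUEquiv_apply (hM : M = N * q) (d : (ZMod (N * q))ˣ) :
    castUEquiv hM d = castU hM d := rfl

theorem castU_bijective (hM : M = N * q) : Function.Bijective (castU hM) :=
  (castUEquiv hM).bijective

theorem coe_castU (hM : M = N * q) (d : (ZMod (N * q))ˣ) :
    ((castU hM d : (ZMod M)ˣ) : ZMod M) = ZMod.ringEquivCongr hM.symm (d : ZMod (N * q)) := rfl

@[simp] theorem castU_rfl (d : (ZMod (N * q))ˣ) : castU (rfl : N * q = N * q) d = d := by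
  apply Units.ext
  rw [coe_castU, ZMod.ringEquivCongr_refl_apply]

theorem val_castU (hM : M = N * q) (d : (ZMod (N * q))ˣ) :
    ((castU hM d : (ZMod M)ˣ) : ZMod M).val = (d : ZMod (N * q)).val := by
  rw [coe_castU, ZMod.ringEquivCongr_val]

/-- `N ∣ M` -/
theorem dvd_of_eq (hM : M = N * q) : N ∣ M := hM ▸ Dvd.intro q rfl

/-- `q ∣ M` -/
theorem dvd_of_eq' (hM : M = N * q) : q ∣ M := hM ▸ Dvd.intro_left N rfl

/-- `castU hM d ≡ 1 mod N` iff `d` is in the `q`-part on the gate side (the chief's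
`Seam.IsOneModLeft`) -/
theorem unitsMap_castU_eq_one_iff (hM : M = N * q) (d : (ZMod (N * q))ˣ) :
    ZMod.unitsMap (dvd_of_eq hM) (castU hM d) = 1 ↔ Fermat.Agent.S43.Seam.IsOneModLeft N q d := by
  subst hM
  rw [castU_rfl]
  unfold Fermat.Agent.S43.Seam.IsOneModLeft
  constructor
  · intro h
    have := congrArg (fun u : (ZMod N)ˣ => (u : ZMod N)) h
    simpa [ZMod.unitsMap_val] using this
  · intro h
    apply Units.ext
    rw [ZMod.unitsMap_val, Units.val_one]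
    exact h

/-- `H'` (gate side) sits in `H` (level `M`) -/
def LeAt (hM : M = N * q) (H' : Subgroup (ZMod (N * q))ˣ) (H : Subgroup (ZMod M)ˣ) : Prop :=
  ∀ d ∈ H', castU hM d ∈ H

theorem leAt_iff_map_le (hM : M = N * q) (H' : Subgroup (ZMod (N * q))ˣ)
    (H : Subgroup (ZMod M)ˣ) : LeAt hM H' H ↔ H'.map (castU hM) ≤ H := by
  constructor
  · rintro h _ ⟨d, hd, rfl⟩
    exact h d hd
  · intro h d hd
    exact h ⟨d, hd, rfl⟩

theorem leAt_rfl_iff (H' H : Subgroup (ZMod (N * q))ˣ) :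
    LeAt (rfl : N * q = N * q) H' H ↔ H' ≤ H := by
  constructor
  · intro h d hd
    have := h d hd
    rwa [castU_rfl] at this
  · intro h d hd
    rw [castU_rfl]
    exact h hd

/-- the comap of `H` to the gate side is the biggest `H'` with `LeAt hM H' H` -/
theorem leAt_comap (hM : M = N * q) (H : Subgroup (ZMod M)ˣ) : LeAt hM (H.comap (castU hM)) H :=
  fun _ hd => hd

/-- the instance on the gate side from the one at the level `M` -/
theorem neZero_of_eq [NeZero M] (hM : M = N * q) : NeZero (N * q) := hM ▸ inferInstance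

/-- the cyclotomic character commutes with the cast -/
theorem castU_cyc [NeZero M] [NeZero (N * q)] (hM : M = N * q) (s : GQ) :
    castU hM (cyc (N * q) s) = cyc M s := by
  subst hM
  rw [castU_rfl]

/-- **the cyclotomic diamond of an inertia element at `q ∤ N` is `≡ 1 mod N`**, level `M = N q` -/
theorem unitsMap_cyc_eq_one_of_inertia [NeZero M] (hM : M = N * q) (hq : q.Prime) (hqN : ¬ q ∣ N)
    (A : ValuationSubring Qbar) (hA : A.LiesOverPrime q) (s : GQ)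
    (hs : s ∈ A.inertiaSubgroupIn ℚ) : ZMod.unitsMap (dvd_of_eq hM) (cyc M s) = 1 := by
  have := neZero_of_eq hM
  rw [← castU_cyc hM s, unitsMap_castU_eq_one_iff]
  exact Fermat.Agent.S43.Loc2.Type.isOneModLeft_chi hq hqN A hA s hs

end Cast

/-! ### the gate cubic at the level `M` -/

section Main

variable {M N q : ℕ} [NeZero M] [NeZero (N * q)] (hM : M = N * q)
  (m : ℕ) (p : ℕ) [hp : Fact p.Prime]
  {H : Subgroup (ZMod M)ˣ} {H' : Subgroup (ZMod (N * q))ˣ}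
  (O : Type) [CommRing O] [Algebra ℤ_[p] O]

/-- **the gate cubic on `LamO`**, level `M = N q` -/
theorem rO_cubic_at (hH : LeAt hM H' H) (hHm : ∀ d : (ZMod M)ˣ, d ^ (2 * m + 1) ∈ H)
    (hq : q.Prime) (hqN : ¬ q ∣ N) (hG : LG1HypAtH N q p H' false)
    (A : ValuationSubring Qbar) (hA : A.LiesOverPrime q) (s : GQ)
    (hs : s ∈ A.inertiaSubgroupIn ℚ) :
    (rO M m p H O s - dO M m p H O (cyc M s ^ m)) *
        (rO M m p H O s - dO M m p H O (cyc M s ^ m)) *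
      (rO M m p H O s - dO M m p H O (cyc M s ^ m)⁻¹) = 0 := by
  subst hM
  exact Gate.rO_cubic m p O ((leAt_rfl_iff H' H).mp hH) hHm hq hqN hG A hA s hs

/-- **unipotent inertia on `LamO`** when `cyc s ^ m ∈ H`, level `M = N q` -/
theorem rO_unipotent_at (hH : LeAt hM H' H) (hHm : ∀ d : (ZMod M)ˣ, d ^ (2 * m + 1) ∈ H)
    (hq : q.Prime) (hqN : ¬ q ∣ N) (hG : LG1HypAtH N q p H' false)
    (A : ValuationSubring Qbar) (hA : A.LiesOverPrime q) (s : GQ)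
    (hs : s ∈ A.inertiaSubgroupIn ℚ) (hd : cyc M s ^ m ∈ H) :
    (rO M m p H O s - 1) * (rO M m p H O s - 1) * (rO M m p H O s - 1) = 0 := by
  subst hM
  exact Gate.rO_unipotent m p O ((leAt_rfl_iff H' H).mp hH) hHm hq hqN hG A hA s hs hd

section J

open Fermat.Agent.S43.Rho.LamInst

variable (S₀ : Finset ℕ) (𝔪 : Ideal (MvPolynomial (J M p S₀) O)) [𝔪.IsMaximal]

/-- **the gate cubic on `LamQ`** (`LamInst`), level `M = N q` -/
theorem rQ_cubic_at (hH : LeAt hM H' H) (hHm : ∀ d : (ZMod M)ˣ, d ^ (2 * m + 1) ∈ H)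
    (hq : q.Prime) (hqN : ¬ q ∣ N) (hG : LG1HypAtH N q p H' false)
    (A : ValuationSubring Qbar) (hA : A.LiesOverPrime q) (s : GQ)
    (hs : s ∈ A.inertiaSubgroupIn ℚ) :
    (rQ M m p H O S₀ 𝔪 s - dQ M m p H O S₀ 𝔪 (cyc M s ^ m)) *
        (rQ M m p H O S₀ 𝔪 s - dQ M m p H O S₀ 𝔪 (cyc M s ^ m)) *
      (rQ M m p H O S₀ 𝔪 s - dQ M m p H O S₀ 𝔪 (cyc M s ^ m)⁻¹) = 0 := by
  subst hM
  exact Gate.rQ_cubic m p O S₀ 𝔪 ((leAt_rfl_iff H' H).mp hH) hHm hq hqN hG A hA s hs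

/-- **unipotent inertia on `LamQ`** (`LamInst`) when `cyc s ^ m ∈ H`, level `M = N q` -/
theorem rQ_unipotent_at (hH : LeAt hM H' H) (hHm : ∀ d : (ZMod M)ˣ, d ^ (2 * m + 1) ∈ H)
    (hq : q.Prime) (hqN : ¬ q ∣ N) (hG : LG1HypAtH N q p H' false)
    (A : ValuationSubring Qbar) (hA : A.LiesOverPrime q) (s : GQ)
    (hs : s ∈ A.inertiaSubgroupIn ℚ) (hd : cyc M s ^ m ∈ H) :
    (rQ M m p H O S₀ 𝔪 s - 1) * (rQ M m p H O S₀ 𝔪 s - 1) *
      (rQ M m p H O S₀ 𝔪 s - 1) = 0 := by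
  subst hM
  exact Gate.rQ_unipotent m p O S₀ 𝔪 ((leAt_rfl_iff H' H).mp hH) hHm hq hqN hG A hA s hs hd

end J

section K

open Fermat.Agent.S43.Rho.LamInstD

variable (S₀ : Finset ℕ) (𝔪 : Ideal (MvPolynomial (K M p S₀) O)) [𝔪.IsMaximal]

/-- **the gate cubic on `LamQ`** (`LamInstD`: `dQ u` is an ELEMENT of the Hecke algebra `TQ`),
level `M = N q` -/
theorem rQ_cubic_D_at (hH : LeAt hM H' H) (hHm : ∀ d : (ZMod M)ˣ, d ^ (2 * m + 1) ∈ H)
    (hq : q.Prime) (hqN : ¬ q ∣ N) (hG : LG1HypAtH N q p H' false)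
    (A : ValuationSubring Qbar) (hA : A.LiesOverPrime q) (s : GQ)
    (hs : s ∈ A.inertiaSubgroupIn ℚ) :
    (rQ M m p H O S₀ 𝔪 s - (dQ M m p H O S₀ 𝔪 (cyc M s ^ m) : TQ M m p H O S₀ 𝔪)) *
        (rQ M m p H O S₀ 𝔪 s - (dQ M m p H O S₀ 𝔪 (cyc M s ^ m) : TQ M m p H O S₀ 𝔪)) *
      (rQ M m p H O S₀ 𝔪 s -
        (dQ M m p H O S₀ 𝔪 (cyc M s ^ m)⁻¹ : TQ M m p H O S₀ 𝔪)) = 0 := by
  subst hM
  exact Gate.rQ_cubic_D m p O S₀ 𝔪 ((leAt_rfl_iff H' H).mp hH) hHm hq hqN hG A hA s hs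

/-- **unipotent inertia on `LamQ`** (`LamInstD`) when `cyc s ^ m ∈ H`, level `M = N q` -/
theorem rQ_unipotent_D_at (hH : LeAt hM H' H) (hHm : ∀ d : (ZMod M)ˣ, d ^ (2 * m + 1) ∈ H)
    (hq : q.Prime) (hqN : ¬ q ∣ N) (hG : LG1HypAtH N q p H' false)
    (A : ValuationSubring Qbar) (hA : A.LiesOverPrime q) (s : GQ)
    (hs : s ∈ A.inertiaSubgroupIn ℚ) (hd : cyc M s ^ m ∈ H) :
    (rQ M m p H O S₀ 𝔪 s - 1) * (rQ M m p H O S₀ 𝔪 s - 1) *
      (rQ M m p H O S₀ 𝔪 s - 1) = 0 := by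
  subst hM
  exact Gate.rQ_unipotent_D m p O S₀ 𝔪 ((leAt_rfl_iff H' H).mp hH) hHm hq hqN hG A hA s hs hd

end K

end Main

/-! ### `q = 2` -/

section Two

variable {M N : ℕ} [NeZero M] [NeZero (N * 2)] (hM : M = N * 2)
  (m : ℕ) (p : ℕ) [hp : Fact p.Prime]
  {H : Subgroup (ZMod M)ˣ} {H' : Subgroup (ZMod (N * 2))ˣ}
  (O : Type) [CommRing O] [Algebra ℤ_[p] O]

include hM in
/-- **the cyclotomic diamond of an inertia element at `2` is trivial**, level `M = 2 N`, `N` odd -/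
theorem cyc_eq_one_of_inertia_two_at (hN2 : ¬ 2 ∣ N)
    (A : ValuationSubring Qbar) (hA : A.LiesOverPrime 2) (s : GQ)
    (hs : s ∈ A.inertiaSubgroupIn ℚ) : cyc M s = 1 := by
  subst hM
  exact Gate.cyc_eq_one_of_inertia_two hN2 A hA s hs

/-- **unipotent inertia at `2` on `LamQ`** (`LamInst`), level `M = 2 N`, no hypothesis on `H` -/
theorem rQ_unipotent_two_at (S₀ : Finset ℕ)
    (𝔪 : Ideal (MvPolynomial (Fermat.Agent.S43.Rho.LamInst.J M p S₀) O)) [𝔪.IsMaximal]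
    (hH : LeAt hM H' H) (hHm : ∀ d : (ZMod M)ˣ, d ^ (2 * m + 1) ∈ H)
    (hN2 : ¬ 2 ∣ N) (hG : LG1HypAtH N 2 p H' false)
    (A : ValuationSubring Qbar) (hA : A.LiesOverPrime 2) (s : GQ)
    (hs : s ∈ A.inertiaSubgroupIn ℚ) :
    (Fermat.Agent.S43.Rho.LamInst.rQ M m p H O S₀ 𝔪 s - 1) *
        (Fermat.Agent.S43.Rho.LamInst.rQ M m p H O S₀ 𝔪 s - 1) *
      (Fermat.Agent.S43.Rho.LamInst.rQ M m p H O S₀ 𝔪 s - 1) = 0 := by
  subst hM
  exact Gate.rQ_unipotent_two m p O S₀ 𝔪 ((leAt_rfl_iff H' H).mp hH) hHm hN2 hG A hA s hs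

/-- **unipotent inertia at `2` on `LamQ`** (`LamInstD`), level `M = 2 N`, no hypothesis on `H` -/
theorem rQ_unipotent_two_D_at (S₀ : Finset ℕ)
    (𝔪 : Ideal (MvPolynomial (Fermat.Agent.S43.Rho.LamInstD.K M p S₀) O)) [𝔪.IsMaximal]
    (hH : LeAt hM H' H) (hHm : ∀ d : (ZMod M)ˣ, d ^ (2 * m + 1) ∈ H)
    (hN2 : ¬ 2 ∣ N) (hG : LG1HypAtH N 2 p H' false)
    (A : ValuationSubring Qbar) (hA : A.LiesOverPrime 2) (s : GQ)
    (hs : s ∈ A.inertiaSubgroupIn ℚ) :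
    (Fermat.Agent.S43.Rho.LamInstD.rQ M m p H O S₀ 𝔪 s - 1) *
        (Fermat.Agent.S43.Rho.LamInstD.rQ M m p H O S₀ 𝔪 s - 1) *
      (Fermat.Agent.S43.Rho.LamInstD.rQ M m p H O S₀ 𝔪 s - 1) = 0 := by
  subst hM
  exact Gate.rQ_unipotent_two_D m p O S₀ 𝔪 ((leAt_rfl_iff H' H).mp hH) hHm hN2 hG A hA s hs

end Two

end Fermat.Agent.S43.Rho.Feed.GateAt

end
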