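/-
S43 (row 37), PROJECT R, block L1 = `Rho/**`, file `Feed/GateLevel` (helper7).

**THE GATE CUBIC AT EVERY PRIME `ℓ ∥ M` OF A LEVEL `M`, NO GATE HYPOTHESIS LEFT.**

`Rho/Feed/GateAt` (the cubic at a variable level `M = N q`, from a gate
`hG : LG1HypAtH N q p H' false`) composed with helper4's `LG1/H/GateOne.lg1HypAtH_prime`
(THE GATE at every prime `r ∤ N`, `5 ≤ N`, for every `H'` containing the elements of the `r`-part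
killed by an integer prime to `p`), at `N := M / ℓ`, `q := ℓ`, `H' := H.comap (castU hM)`.

The caller gives: `ℓ` prime, `ℓ ∣ M`, `¬ ℓ ∣ M / ℓ`, `5 ≤ M / ℓ`, `p ≠ 2`, `p ≠ ℓ`, and
* `hHtor` : `H` contains every `d ≡ 1 mod M / ℓ` killed by an integer prime to `p`
  (e.g. `H` the kernel of a homomorphism to a `p`-group : helper18's `TwGroup` clause);
* `hHm`   : `H` contains the `(2 m + 1)`-th powers.
No instance has to be built by the caller.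
-/
import Mathlib
import Fermat.Agent.S43.Rho.Feed.GateAt
import Fermat.Agent.S43.LG1.H.GateOne

set_option autoImplicit false
set_option linter.unusedSectionVars false

noncomputable section

namespace Fermat.Agent.S43.Rho.Feed.GateLevel

open Fermat.Agent.S43.Rho.Feed.Inst Fermat.Agent.S43.Rho.Feed.Base
open Fermat.Agent.S43.Rho.Feed.GateAt
open Fermat.Agent.S43.JH.Tw Fermat.Agent.S43.JH.Part Fermat.Agent.S43.Tw.Defs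
open Fermat.Agent.S43.LG1.H.Lit
open Fermat.Agent.S31.Core (Qbar GQ)

variable {M ℓ : ℕ}

/-- `M = M / ℓ * ℓ` -/
theorem eq_div_mul (hℓM : ℓ ∣ M) : M = M / ℓ * ℓ := (Nat.div_mul_cancel hℓM).symm

/-- `M / ℓ ∣ M` -/
theorem div_dvd (hℓM : ℓ ∣ M) : M / ℓ ∣ M := dvd_of_eq (eq_div_mul hℓM)

/-- **`H` contains the prime-to-`p` torsion of the `ℓ`-part** (`d ≡ 1 mod M / ℓ`) -/
def ContainsTorAt (p : ℕ) (hℓM : ℓ ∣ M) (H : Subgroup (ZMod M)ˣ) : Prop :=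
  ∀ d : (ZMod M)ˣ, ZMod.unitsMap (div_dvd hℓM) d = 1 →
    ∀ k : ℕ, k.Coprime p → d ^ k = 1 → d ∈ H

/-- a subgroup containing ALL the elements killed by an integer prime to `p` (e.g. the kernel of a
homomorphism to a `p`-group) -/
theorem containsTorAt_of_forall {p : ℕ} (hℓM : ℓ ∣ M) {H : Subgroup (ZMod M)ˣ}
    (h : ∀ d : (ZMod M)ˣ, ∀ k : ℕ, k.Coprime p → d ^ k = 1 → d ∈ H) : ContainsTorAt p hℓM H :=
  fun d _ k hk hd => h d k hk hd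

/-- **THE GATE AT A PRIME `ℓ ∥ M`, for the comap of `H` to the gate side** -/
theorem lg1HypAtH_comap [NeZero M] (hℓ : ℓ.Prime) (hℓM : ℓ ∣ M) (hℓ2 : ¬ ℓ ∣ M / ℓ)
    (hN : 5 ≤ M / ℓ) {p : ℕ} (hp : p.Prime) (hp2 : p ≠ 2) (hpℓ : p ≠ ℓ)
    (H : Subgroup (ZMod M)ˣ) (hHtor : ContainsTorAt p hℓM H) :
    @LG1HypAtH (M / ℓ) ℓ p (neZero_of_eq (eq_div_mul hℓM))
      (H.comap (castU (eq_div_mul hℓM))) false := by
  have hM : M = M / ℓ * ℓ := eq_div_mul hℓM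
  have i0 : NeZero (M / ℓ * ℓ) := neZero_of_eq hM
  have i1 : NeZero (M / ℓ) := ⟨fun h => NeZero.ne (M / ℓ * ℓ) (by rw [h, zero_mul])⟩
  have i2 : NeZero ℓ := ⟨hℓ.ne_zero⟩
  have i3 : Fact ℓ.Prime := ⟨hℓ⟩
  have i4 : Fact (ℓ.Coprime (M / ℓ)) := ⟨(Nat.Prime.coprime_iff_not_dvd hℓ).mpr hℓ2⟩
  refine Fermat.Agent.S43.LG1.H.GateOne.lg1HypAtH_prime hℓ hℓ2 hN hp hp2 hpℓ _ ?_
  intro d hd k hk hdk
  rw [Subgroup.mem_comap]
  refine hHtor (castU hM d) ?_ k hk ?_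
  · rw [unitsMap_castU_eq_one_iff, Fermat.Agent.S43.LG1.ToSeam.isOneModLeft_iff]
    exact (Fermat.Agent.S43.LG1.Ig.TowerH.mem_rPart_iff (M / ℓ) ℓ).mp hd
  · rw [← map_pow, hdk, map_one]

section Main

variable [NeZero M] (hℓ : ℓ.Prime) (hℓM : ℓ ∣ M) (hℓ2 : ¬ ℓ ∣ M / ℓ) (hN : 5 ≤ M / ℓ)
  (m : ℕ) (p : ℕ) [hp : Fact p.Prime] (hp2 : p ≠ 2) (hpℓ : p ≠ ℓ)
  {H : Subgroup (ZMod M)ˣ} (hHtor : ContainsTorAt p hℓM H)
  (hHm : ∀ d : (ZMod M)ˣ, d ^ (2 * m + 1) ∈ H)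
  (O : Type) [CommRing O] [Algebra ℤ_[p] O]

include hℓ hℓ2 hN hp2 hpℓ hHtor hHm

/-- **the gate cubic on `LamO`** at a prime `ℓ ∥ M` -/
theorem rO_cubic_prime (A : ValuationSubring Qbar) (hA : A.LiesOverPrime ℓ) (s : GQ)
    (hs : s ∈ A.inertiaSubgroupIn ℚ) :
    (rO M m p H O s - dO M m p H O (cyc M s ^ m)) *
        (rO M m p H O s - dO M m p H O (cyc M s ^ m)) *
      (rO M m p H O s - dO M m p H O (cyc M s ^ m)⁻¹) = 0 := by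
  have hM : M = M / ℓ * ℓ := eq_div_mul hℓM
  have i0 : NeZero (M / ℓ * ℓ) := neZero_of_eq hM
  exact rO_cubic_at hM m p O (leAt_comap hM H) hHm hℓ hℓ2
    (lg1HypAtH_comap hℓ hℓM hℓ2 hN hp.out hp2 hpℓ H hHtor) A hA s hs

/-- **unipotent inertia on `LamO`** at a prime `ℓ ∥ M` when `cyc s ^ m ∈ H` -/
theorem rO_unipotent_prime (A : ValuationSubring Qbar) (hA : A.LiesOverPrime ℓ) (s : GQ)
    (hs : s ∈ A.inertiaSubgroupIn ℚ) (hd : cyc M s ^ m ∈ H) :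
    (rO M m p H O s - 1) * (rO M m p H O s - 1) * (rO M m p H O s - 1) = 0 := by
  have hM : M = M / ℓ * ℓ := eq_div_mul hℓM
  have i0 : NeZero (M / ℓ * ℓ) := neZero_of_eq hM
  exact rO_unipotent_at hM m p O (leAt_comap hM H) hHm hℓ hℓ2
    (lg1HypAtH_comap hℓ hℓM hℓ2 hN hp.out hp2 hpℓ H hHtor) A hA s hs hd

section J

open Fermat.Agent.S43.Rho.LamInst

variable (S₀ : Finset ℕ) (𝔪 : Ideal (MvPolynomial (J M p S₀) O)) [𝔪.IsMaximal]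

/-- **the gate cubic on `LamQ`** (`LamInst`) at a prime `ℓ ∥ M` -/
theorem rQ_cubic_prime (A : ValuationSubring Qbar) (hA : A.LiesOverPrime ℓ) (s : GQ)
    (hs : s ∈ A.inertiaSubgroupIn ℚ) :
    (rQ M m p H O S₀ 𝔪 s - dQ M m p H O S₀ 𝔪 (cyc M s ^ m)) *
        (rQ M m p H O S₀ 𝔪 s - dQ M m p H O S₀ 𝔪 (cyc M s ^ m)) *
      (rQ M m p H O S₀ 𝔪 s - dQ M m p H O S₀ 𝔪 (cyc M s ^ m)⁻¹) = 0 := by
  have hM : M = M / ℓ * ℓ := eq_div_mul hℓM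
  have i0 : NeZero (M / ℓ * ℓ) := neZero_of_eq hM
  exact rQ_cubic_at hM m p O S₀ 𝔪 (leAt_comap hM H) hHm hℓ hℓ2
    (lg1HypAtH_comap hℓ hℓM hℓ2 hN hp.out hp2 hpℓ H hHtor) A hA s hs

/-- **unipotent inertia on `LamQ`** (`LamInst`) at a prime `ℓ ∥ M` when `cyc s ^ m ∈ H` -/
theorem rQ_unipotent_prime (A : ValuationSubring Qbar) (hA : A.LiesOverPrime ℓ) (s : GQ)
    (hs : s ∈ A.inertiaSubgroupIn ℚ) (hd : cyc M s ^ m ∈ H) :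
    (rQ M m p H O S₀ 𝔪 s - 1) * (rQ M m p H O S₀ 𝔪 s - 1) *
      (rQ M m p H O S₀ 𝔪 s - 1) = 0 := by
  have hM : M = M / ℓ * ℓ := eq_div_mul hℓM
  have i0 : NeZero (M / ℓ * ℓ) := neZero_of_eq hM
  exact rQ_unipotent_at hM m p O S₀ 𝔪 (leAt_comap hM H) hHm hℓ hℓ2
    (lg1HypAtH_comap hℓ hℓM hℓ2 hN hp.out hp2 hpℓ H hHtor) A hA s hs hd

end J

section K

open Fermat.Agent.S43.Rho.LamInstD

variable (S₀ : Finset ℕ) (𝔪 : Ideal (MvPolynomial (K M p S₀) O)) [𝔪.IsMaximal]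

/-- **the gate cubic on `LamQ`** (`LamInstD`: `dQ u : TQ`) at a prime `ℓ ∥ M` -/
theorem rQ_cubic_D_prime (A : ValuationSubring Qbar) (hA : A.LiesOverPrime ℓ) (s : GQ)
    (hs : s ∈ A.inertiaSubgroupIn ℚ) :
    (rQ M m p H O S₀ 𝔪 s - (dQ M m p H O S₀ 𝔪 (cyc M s ^ m) : TQ M m p H O S₀ 𝔪)) *
        (rQ M m p H O S₀ 𝔪 s - (dQ M m p H O S₀ 𝔪 (cyc M s ^ m) : TQ M m p H O S₀ 𝔪)) *
      (rQ M m p H O S₀ 𝔪 s -
        (dQ M m p H O S₀ 𝔪 (cyc M s ^ m)⁻¹ : TQ M m p H O S₀ 𝔪)) = 0 := by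
  have hM : M = M / ℓ * ℓ := eq_div_mul hℓM
  have i0 : NeZero (M / ℓ * ℓ) := neZero_of_eq hM
  exact rQ_cubic_D_at hM m p O S₀ 𝔪 (leAt_comap hM H) hHm hℓ hℓ2
    (lg1HypAtH_comap hℓ hℓM hℓ2 hN hp.out hp2 hpℓ H hHtor) A hA s hs

/-- **unipotent inertia on `LamQ`** (`LamInstD`) at a prime `ℓ ∥ M` when `cyc s ^ m ∈ H` -/
theorem rQ_unipotent_D_prime (A : ValuationSubring Qbar) (hA : A.LiesOverPrime ℓ) (s : GQ)
    (hs : s ∈ A.inertiaSubgroupIn ℚ) (hd : cyc M s ^ m ∈ H) :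
    (rQ M m p H O S₀ 𝔪 s - 1) * (rQ M m p H O S₀ 𝔪 s - 1) *
      (rQ M m p H O S₀ 𝔪 s - 1) = 0 := by
  have hM : M = M / ℓ * ℓ := eq_div_mul hℓM
  have i0 : NeZero (M / ℓ * ℓ) := neZero_of_eq hM
  exact rQ_unipotent_D_at hM m p O S₀ 𝔪 (leAt_comap hM H) hHm hℓ hℓ2
    (lg1HypAtH_comap hℓ hℓM hℓ2 hN hp.out hp2 hpℓ H hHtor) A hA s hs hd

end K

end Main

/-! ### `ℓ = 2` : unipotent, no hypothesis `cyc s ^ m ∈ H` -/

section Two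

variable [NeZero M] (h2M : 2 ∣ M) (h4 : ¬ 2 ∣ M / 2) (hN : 5 ≤ M / 2)
  (m : ℕ) (p : ℕ) [hp : Fact p.Prime] (hp2 : p ≠ 2)
  {H : Subgroup (ZMod M)ˣ} (hHtor : ContainsTorAt p h2M H)
  (hHm : ∀ d : (ZMod M)ˣ, d ^ (2 * m + 1) ∈ H)
  (O : Type) [CommRing O] [Algebra ℤ_[p] O]

include h4 hN hp2 hHtor hHm

/-- **unipotent inertia at `2` on `LamQ`** (`LamInst`), `2 ∥ M` -/
theorem rQ_unipotent_two_prime (S₀ : Finset ℕ)
    (𝔪 : Ideal (MvPolynomial (Fermat.Agent.S43.Rho.LamInst.J M p S₀) O)) [𝔪.IsMaximal]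
    (A : ValuationSubring Qbar) (hA : A.LiesOverPrime 2) (s : GQ)
    (hs : s ∈ A.inertiaSubgroupIn ℚ) :
    (Fermat.Agent.S43.Rho.LamInst.rQ M m p H O S₀ 𝔪 s - 1) *
        (Fermat.Agent.S43.Rho.LamInst.rQ M m p H O S₀ 𝔪 s - 1) *
      (Fermat.Agent.S43.Rho.LamInst.rQ M m p H O S₀ 𝔪 s - 1) = 0 := by
  have hM : M = M / 2 * 2 := eq_div_mul h2M
  have i0 : NeZero (M / 2 * 2) := neZero_of_eq hM
  exact rQ_unipotent_two_at hM m p O S₀ 𝔪 (leAt_comap hM H) hHm h4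
    (lg1HypAtH_comap Nat.prime_two h2M h4 hN hp.out hp2 hp2 H hHtor) A hA s hs

/-- **unipotent inertia at `2` on `LamQ`** (`LamInstD`), `2 ∥ M` -/
theorem rQ_unipotent_two_D_prime (S₀ : Finset ℕ)
    (𝔪 : Ideal (MvPolynomial (Fermat.Agent.S43.Rho.LamInstD.K M p S₀) O)) [𝔪.IsMaximal]
    (A : ValuationSubring Qbar) (hA : A.LiesOverPrime 2) (s : GQ)
    (hs : s ∈ A.inertiaSubgroupIn ℚ) :
    (Fermat.Agent.S43.Rho.LamInstD.rQ M m p H O S₀ 𝔪 s - 1) *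
        (Fermat.Agent.S43.Rho.LamInstD.rQ M m p H O S₀ 𝔪 s - 1) *
      (Fermat.Agent.S43.Rho.LamInstD.rQ M m p H O S₀ 𝔪 s - 1) = 0 := by
  have hM : M = M / 2 * 2 := eq_div_mul h2M
  have i0 : NeZero (M / 2 * 2) := neZero_of_eq hM
  exact rQ_unipotent_two_D_at hM m p O S₀ 𝔪 (leAt_comap hM H) hHm h4
    (lg1HypAtH_comap Nat.prime_two h2M h4 hN hp.out hp2 hp2 H hHtor) A hA s hs

end Two

end Fermat.Agent.S43.Rho.Feed.GateLevel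

end
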