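/-
S43 (row 37), PROJECT R, block L1 = `Rho/**`, file `Feed/LevelArith` (helper7).

**THE ARITHMETIC OF A TAYLOR--WILES LEVEL `M = N ∏ Q i`** owed by the callers of
`Rho/Feed/GateLevel` (and of `GateType`, `DispInst`, `TypePush`) at every prime `ℓ` of the level:
`ℓ ∣ M`, `¬ ℓ ∣ M / ℓ`, `5 ≤ M / ℓ`.  Mathlib only; binders = the chief's `LevelHecke` literal
(`N`, `Qn : Fin r → ℕ` injective, `hQp`, `hQN`, `hM : M = N * ∏ i, Qn i`).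
-/
import Mathlib

set_option autoImplicit false

namespace Fermat.Agent.S43.Rho.Feed.LevelArith

/-! ### generic -/

/-- a prime of a squarefree `M` does not divide `M / ℓ` -/
theorem not_dvd_div_of_squarefree {M ℓ : ℕ} (hMsq : Squarefree M) (hℓ : ℓ.Prime) (hℓM : ℓ ∣ M) :
    ¬ ℓ ∣ M / ℓ := by
  intro h
  obtain ⟨c, hc⟩ := hℓM
  have hc' : M / ℓ = c := by rw [hc, Nat.mul_div_cancel_left c hℓ.pos]
  rw [hc'] at h
  obtain ⟨e, he⟩ := h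
  have h1 : ℓ * ℓ ∣ M := ⟨e, by rw [hc, he, mul_assoc]⟩
  exact hℓ.one_lt.ne' (Nat.isUnit_iff.mp (hMsq ℓ h1))

/-- `K ∣ M`, `K` prime to `ℓ` : `K ∣ M / ℓ` -/
theorem dvd_div_of_coprime {M ℓ K : ℕ} (hℓM : ℓ ∣ M) (hKM : K ∣ M) (hK : K.Coprime ℓ) :
    K ∣ M / ℓ := by
  obtain ⟨c, hc⟩ := hℓM
  rcases Nat.eq_zero_or_pos ℓ with h0 | hpos
  · subst h0
    simp
  rw [hc, Nat.mul_div_cancel_left c hpos]
  rw [hc] at hKM
  exact hK.dvd_of_dvd_mul_left hKM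

/-- `K ∣ M`, `K` prime to `ℓ`, `5 ≤ K`, `M ≠ 0` : `5 ≤ M / ℓ` -/
theorem five_le_div {M ℓ K : ℕ} (hM0 : M ≠ 0) (hℓM : ℓ ∣ M) (hKM : K ∣ M) (hK : K.Coprime ℓ)
    (hK5 : 5 ≤ K) : 5 ≤ M / ℓ := by
  have h1 : K ∣ M / ℓ := dvd_div_of_coprime hℓM hKM hK
  have h2 : 0 < M / ℓ := by
    obtain ⟨c, hc⟩ := hℓM
    rcases Nat.eq_zero_or_pos ℓ with h0 | hpos
    · subst h0
      simp at hc
      exact absurd hc hM0
    rw [hc, Nat.mul_div_cancel_left c hpos]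
    rcases Nat.eq_zero_or_pos c with h0 | h
    · subst h0
      simp at hc
      exact absurd hc hM0
    · exact h
  exact hK5.trans (Nat.le_of_dvd h2 h1)

/-! ### the level `M = N ∏ Q i` -/

section Level

variable {N r : ℕ} {Qn : Fin r → ℕ} {M : ℕ}

theorem dvd_level (hM : M = N * ∏ i, Qn i) : N ∣ M := hM ▸ Dvd.intro _ rfl

theorem prod_dvd_level (hM : M = N * ∏ i, Qn i) : ∏ i, Qn i ∣ M := hM ▸ Dvd.intro_left _ rfl

theorem Qn_dvd_level (hM : M = N * ∏ i, Qn i) (i : Fin r) : Qn i ∣ M :=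
  (Finset.dvd_prod_of_mem Qn (Finset.mem_univ i)).trans (prod_dvd_level hM)

theorem dvd_level_of_dvd (hM : M = N * ∏ i, Qn i) {ℓ : ℕ} (hℓN : ℓ ∣ N) : ℓ ∣ M :=
  hℓN.trans (dvd_level hM)

/-- the product of the `Q i` (distinct primes) is squarefree -/
theorem squarefree_prod (hQinj : Function.Injective Qn) (hQp : ∀ i, (Qn i).Prime) :
    Squarefree (∏ i, Qn i) := by
  refine Finset.squarefree_prod_of_pairwise_isCoprime ?_ fun i _ => (hQp i).squarefree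
  intro i _ j _ hij
  exact Nat.coprime_iff_isRelPrime.mp
    ((Nat.coprime_primes (hQp i) (hQp j)).mpr fun h => hij (hQinj h))

/-- `N` is prime to the product of the `Q i` -/
theorem coprime_prod (hQp : ∀ i, (Qn i).Prime) (hQN : ∀ i, ¬ Qn i ∣ N) :
    N.Coprime (∏ i, Qn i) := by
  refine Nat.Coprime.prod_right fun i _ => ?_
  exact ((Nat.Prime.coprime_iff_not_dvd (hQp i)).mpr (hQN i)).symm

/-- **the level is squarefree** -/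
theorem squarefree_level (hN : Squarefree N) (hQinj : Function.Injective Qn)
    (hQp : ∀ i, (Qn i).Prime) (hQN : ∀ i, ¬ Qn i ∣ N) (hM : M = N * ∏ i, Qn i) :
    Squarefree M := by
  rw [hM]
  exact (Nat.squarefree_mul (coprime_prod hQp hQN)).mpr ⟨hN, squarefree_prod hQinj hQp⟩

theorem level_ne_zero (hN0 : N ≠ 0) (hQp : ∀ i, (Qn i).Prime) (hM : M = N * ∏ i, Qn i) :
    M ≠ 0 := by
  rw [hM]
  exact mul_ne_zero hN0 (Finset.prod_ne_zero_iff.mpr fun i _ => (hQp i).ne_zero)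

/-- **at a prime `ℓ ∣ N`** : `¬ ℓ ∣ M / ℓ` -/
theorem not_dvd_div_of_dvd_N (hN : Squarefree N) (hQinj : Function.Injective Qn)
    (hQp : ∀ i, (Qn i).Prime) (hQN : ∀ i, ¬ Qn i ∣ N) (hM : M = N * ∏ i, Qn i)
    {ℓ : ℕ} (hℓ : ℓ.Prime) (hℓN : ℓ ∣ N) : ¬ ℓ ∣ M / ℓ :=
  not_dvd_div_of_squarefree (squarefree_level hN hQinj hQp hQN hM) hℓ (dvd_level_of_dvd hM hℓN)

/-- **at a Taylor--Wiles prime** : `¬ Q i ∣ M / Q i` -/
theorem not_dvd_div_Qn (hN : Squarefree N) (hQinj : Function.Injective Qn)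
    (hQp : ∀ i, (Qn i).Prime) (hQN : ∀ i, ¬ Qn i ∣ N) (hM : M = N * ∏ i, Qn i) (i : Fin r) :
    ¬ Qn i ∣ M / Qn i :=
  not_dvd_div_of_squarefree (squarefree_level hN hQinj hQp hQN hM) (hQp i) (Qn_dvd_level hM i)

/-- **at a prime `ℓ ∣ N`, one Taylor--Wiles prime `≥ 5` in the level** : `5 ≤ M / ℓ` -/
theorem five_le_div_of_dvd_N (hN0 : N ≠ 0) (hQp : ∀ i, (Qn i).Prime) (hQN : ∀ i, ¬ Qn i ∣ N)
    (hM : M = N * ∏ i, Qn i) {ℓ : ℕ} (hℓ : ℓ.Prime) (hℓN : ℓ ∣ N) (i : Fin r)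
    (hQ5 : 5 ≤ Qn i) : 5 ≤ M / ℓ := by
  refine five_le_div (level_ne_zero hN0 hQp hM) (dvd_level_of_dvd hM hℓN) (Qn_dvd_level hM i)
    ?_ hQ5
  refine (Nat.coprime_primes (hQp i) hℓ).mpr fun h => hQN i ?_
  rw [h]
  exact hℓN

/-- **at a Taylor--Wiles prime, `5 ≤ N`** : `5 ≤ M / Q i` -/
theorem five_le_div_Qn (hN0 : N ≠ 0) (hQp : ∀ i, (Qn i).Prime) (hQN : ∀ i, ¬ Qn i ∣ N)
    (hM : M = N * ∏ i, Qn i) (hN5 : 5 ≤ N) (i : Fin r) : 5 ≤ M / Qn i :=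
  five_le_div (level_ne_zero hN0 hQp hM) (Qn_dvd_level hM i) (dvd_level hM)
    ((Nat.Prime.coprime_iff_not_dvd (hQp i)).mpr (hQN i)).symm hN5

/-- a Taylor--Wiles prime (`p ^ (mT + 1) ∣ Q - 1`, `5 ≤ p`) is `≥ 5` -/
theorem five_le_of_dvd_sub_one {p mT Q : ℕ} (hp5 : 5 ≤ p) (hQ : Q.Prime)
    (hdvd : p ^ (mT + 1) ∣ Q - 1) : 5 ≤ Q := by
  have h1 : p ∣ Q - 1 := (dvd_pow_self p (Nat.succ_ne_zero mT)).trans hdvd
  have h2 : 0 < Q - 1 := Nat.sub_pos_of_lt hQ.one_lt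
  have h3 : p ≤ Q - 1 := Nat.le_of_dvd h2 h1
  omega

/-- a Taylor--Wiles prime is not `p` -/
theorem ne_of_dvd_sub_one {p mT Q : ℕ} (hp : p.Prime) (hQ : Q.Prime)
    (hdvd : p ^ (mT + 1) ∣ Q - 1) : p ≠ Q := by
  rintro rfl
  have h1 : p ∣ p - 1 := (dvd_pow_self p (Nat.succ_ne_zero mT)).trans hdvd
  have h2 : 0 < p - 1 := Nat.sub_pos_of_lt hp.one_lt
  have h3 : p ≤ p - 1 := Nat.le_of_dvd h2 h1
  omega

end Level

end Fermat.Agent.S43.Rho.Feed.LevelArith
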