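import Fermat.Agent.S43.Rho.LamInstD
import Fermat.Agent.S43.Rho.Props.TypeDatum
import Fermat.Agent.S43.Loc2.Type

/-!
# PROJECT R (S43), block L1: THE LOCAL TYPES OF `ρ_K` ON THE MODULE OF RECORD WITH DIAMONDS

`Rho/Props/TypeDatum` instantiated on helper22's `LamInstD` (`TQ M m p H O S₀ 𝔪`, the Hecke algebra
with the diamonds `dQ d` in it), AT A VARIABLE LEVEL `M`.  The gate cubic is a HYPOTHESIS, in the
shape of the conclusions of helper7's `Rho/Feed/GateAt` (`rQ_cubic_D_at`, `rQ_unipotent_D_at`,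
`rQ_unipotent_two_D_at`), so this file imports no gate.

* `pow_eq_self_of_isOneModLeft`, **`cyc_pow_eq_self_of_inertia`** : `cyc M s ^ l = cyc M s` for `s` in
  an inertia group at `l ∥ M` (the `hul` of `Rho/Props/Type*`) ;
* `dO_one`, `dO_mul`, **`dQ_one`, `dQ_mul`, `dQ_pow`, `dQ_mul_inv`, `dQ_inv_mul`** : the diamonds form
  a monoid homomorphism `(ZMod M)ˣ → TQ` (the `huv`) ; `dQ_cyc_pow_self` ;
* `eps_eq_one_of_inertia` (the `hd`), `torsionFree_LamQ` (the `htf`) ;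
* **`charpoly_rhoT_inertia`, `trace_rhoT_inertia`, `trace_sq_rhoT_inertia`** : for `s` in an inertia
  group at `l ∥ M`, `l ≠ p`, `ρ̄` unramified at `l` :
  `charpoly ρ_K(s) = (X - ⟨d⟩)(X - ⟨d⟩⁻¹)`, `tr ρ_K(s) = ⟨d⟩ + ⟨d⟩⁻¹`, `tr ρ_K(s²) = ⟨d⟩² + ⟨d⟩⁻²`,
  `d = cyc M s ^ m` ;
* **`isUnipotentOnInertiaAt_rhoT_of_cube`**, **`isUnipotentOnInertiaAt_rhoT_two`** : the Prelude's
  `IsUnipotentOnInertiaAt` from the unipotent cubic.
-/

set_option autoImplicit false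
set_option linter.unusedSectionVars false

noncomputable section

namespace Fermat.Agent.S43.Rho.Feed.GateType

open Polynomial IsLocalRing
open Fermat.Agent.S43.Rho Fermat.Agent.S43.Rho.Props
open Fermat.Agent.S43.Rho.Lam Fermat.Agent.S43.Hecke.PolyModule Fermat.Agent.S43.Rho.LamDatum
open Fermat.Agent.S43.Rho.Feed.Inst Fermat.Agent.S43.Rho.Feed.Base
open Fermat.Agent.S43.Rho.LamInstD
open Fermat.Agent.S43.JH.Part (diaH diaH_mul diaH_one)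
open Fermat.Agent.S43.Tw.Defs (cyc)
open Fermat.Agent.S31.Core (Qbar GQ)
open Fermat.Agent.S53.Dictionary (mapMat resMatOf)
open scoped IsMulCommutative

/-! ### (A) `cyc M s ^ l = cyc M s` on inertia at `l ∥ M` -/

/-- a unit of `ℤ/Nq` which is `≡ 1 mod N` is fixed by the `q`-th power map (`q ∤ N` prime) -/
theorem pow_eq_self_of_isOneModLeft {N q : ℕ} [NeZero (N * q)] (hq : q.Prime) (hqN : ¬ q ∣ N)
    (d : (ZMod (N * q))ˣ) (hd : Fermat.Agent.S43.Seam.IsOneModLeft N q d) : d ^ q = d := by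
  unfold Fermat.Agent.S43.Seam.IsOneModLeft at hd
  set v : ℕ := (d : ZMod (N * q)).val with hv
  have hdv : (d : ZMod (N * q)) = ((v : ℕ) : ZMod (N * q)) := (ZMod.natCast_zmod_val _).symm
  have h1 : ((N : ℕ) : ℤ) ∣ (v : ℤ) - 1 := by
    rw [hdv, map_natCast] at hd
    rw [← ZMod.intCast_zmod_eq_zero_iff_dvd]
    push_cast
    rw [hd, sub_self]
  have h1' : ((N : ℕ) : ℤ) ∣ (v : ℤ) ^ q - v := by
    have h2 : ((v : ℤ) - 1) ∣ (v : ℤ) ^ q - 1 := by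
      have := sub_dvd_pow_sub_pow (v : ℤ) 1 q
      rwa [one_pow] at this
    have h3 := dvd_sub (h1.trans h2) h1
    have e : (v : ℤ) ^ q - 1 - ((v : ℤ) - 1) = (v : ℤ) ^ q - v := by ring
    rwa [e] at h3
  have h2 : ((q : ℕ) : ℤ) ∣ (v : ℤ) ^ q - v := by
    have := Fact.mk hq
    rw [← ZMod.intCast_zmod_eq_zero_iff_dvd]
    push_cast
    rw [ZMod.pow_card, sub_self]
  have hc : IsCoprime ((N : ℕ) : ℤ) ((q : ℕ) : ℤ) := by
    have : Nat.Coprime N q := ((Nat.Prime.coprime_iff_not_dvd hq).mpr hqN).symm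
    exact Nat.isCoprime_iff_coprime.mpr this
  have h3 : (((N * q : ℕ)) : ℤ) ∣ (v : ℤ) ^ q - v := by
    push_cast
    exact hc.mul_dvd h1' h2
  have h4 : ((((v : ℤ) ^ q - v : ℤ)) : ZMod (N * q)) = 0 :=
    (ZMod.intCast_zmod_eq_zero_iff_dvd _ _).mpr h3
  push_cast at h4
  apply Units.ext
  rw [Units.val_pow_eq_pow_val, hdv]
  exact sub_eq_zero.mp h4

/-- **the cyclotomic diamond of an inertia element at `l ∥ M` is fixed by the `l`-th power map** -/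
theorem cyc_pow_eq_self_of_inertia {M l : ℕ} [NeZero M] (hl : l.Prime) (hlM : l ∣ M)
    (hlM' : ¬ l ∣ M / l) (A : ValuationSubring Qbar) (hA : A.LiesOverPrime l) (s : GQ)
    (hs : s ∈ A.inertiaSubgroupIn ℚ) : cyc M s ^ l = cyc M s := by
  obtain ⟨N, rfl⟩ : ∃ N, M = N * l := ⟨M / l, (Nat.div_mul_cancel hlM).symm⟩
  have hN : N * l / l = N := Nat.mul_div_cancel N hl.pos
  rw [hN] at hlM'
  exact pow_eq_self_of_isOneModLeft hl hlM' _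
    (Fermat.Agent.S43.Loc2.Type.isOneModLeft_chi hl hlM' A hA s hs)

/-! ### (B) the diamonds form a monoid homomorphism into `TQ` -/

section dia

variable (M : ℕ) [NeZero M] (m : ℕ) (p : ℕ) [hp : Fact p.Prime] (H : Subgroup (ZMod M)ˣ)
  (O : Type) [CommRing O] [Algebra ℤ_[p] O] (S₀ : Finset ℕ)

theorem dO_one : dO M m p H O 1 = 1 := by
  show bc ℤ_[p] O (Fermat.Agent.S43.JH.Part.LamH M m p H) (diaH M m p H 1) = 1
  rw [diaH_one, map_one]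

theorem dO_mul (d d' : (ZMod M)ˣ) :
    dO M m p H O (d * d') = dO M m p H O d * dO M m p H O d' := by
  show bc ℤ_[p] O (Fermat.Agent.S43.JH.Part.LamH M m p H) (diaH M m p H (d * d')) =
    bc ℤ_[p] O _ (diaH M m p H d) * bc ℤ_[p] O _ (diaH M m p H d')
  rw [diaH_mul, map_mul]

variable (𝔪 : Ideal (MvPolynomial (K M p S₀) O)) [𝔪.IsMaximal]

set_option maxSynthPendingDepth 2 in
theorem dQ_one : dQ M m p H O S₀ 𝔪 1 = 1 := by
  apply Subtype.ext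
  rw [coe_dQ, OneMemClass.coe_one]
  have e : (⟨dO M m p H O 1, t_mem_Comm O _ (hcommK M m p H O S₀) (Sum.inr 1)⟩ :
      Comm O (tK M m p H O S₀)) = 1 := Subtype.ext (dO_one M m p H O)
  rw [e, map_one]

set_option maxSynthPendingDepth 2 in
theorem dQ_mul (d d' : (ZMod M)ˣ) :
    dQ M m p H O S₀ 𝔪 (d * d') = dQ M m p H O S₀ 𝔪 d * dQ M m p H O S₀ 𝔪 d' := by
  apply Subtype.ext
  have e : (⟨dO M m p H O (d * d'), t_mem_Comm O _ (hcommK M m p H O S₀) (Sum.inr (d * d'))⟩ :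
      Comm O (tK M m p H O S₀)) =
      ⟨dO M m p H O d, t_mem_Comm O _ (hcommK M m p H O S₀) (Sum.inr d)⟩ *
        ⟨dO M m p H O d', t_mem_Comm O _ (hcommK M m p H O S₀) (Sum.inr d')⟩ :=
    Subtype.ext (by push_cast; exact dO_mul M m p H O d d')
  rw [MulMemClass.coe_mul, coe_dQ, coe_dQ, coe_dQ, e, map_mul]

theorem dQ_pow (d : (ZMod M)ˣ) (n : ℕ) :
    dQ M m p H O S₀ 𝔪 (d ^ n) = dQ M m p H O S₀ 𝔪 d ^ n := by
  induction n with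
  | zero => rw [pow_zero, pow_zero, dQ_one]
  | succ n ih => rw [pow_succ, pow_succ, dQ_mul, ih]

theorem dQ_mul_inv (d : (ZMod M)ˣ) : dQ M m p H O S₀ 𝔪 d * dQ M m p H O S₀ 𝔪 d⁻¹ = 1 := by
  rw [← dQ_mul, mul_inv_cancel, dQ_one]

theorem dQ_inv_mul (d : (ZMod M)ˣ) : dQ M m p H O S₀ 𝔪 d⁻¹ * dQ M m p H O S₀ 𝔪 d = 1 := by
  rw [← dQ_mul, inv_mul_cancel, dQ_one]

/-- the diamonds as a monoid homomorphism -/
def dQHom : (ZMod M)ˣ →* ↥(TQ M m p H O S₀ 𝔪) where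
  toFun := dQ M m p H O S₀ 𝔪
  map_one' := dQ_one M m p H O S₀ 𝔪
  map_mul' := dQ_mul M m p H O S₀ 𝔪

theorem dQHom_apply (d : (ZMod M)ˣ) : dQHom M m p H O S₀ 𝔪 d = dQ M m p H O S₀ 𝔪 d := rfl

/-- **`hul`** : the diamond of an inertia element at `l ∥ M` is fixed by the `l`-th power map -/
theorem dQ_cyc_pow_self {l : ℕ} (hl : l.Prime) (hlM : l ∣ M) (hlM' : ¬ l ∣ M / l)
    (A : ValuationSubring Qbar) (hA : A.LiesOverPrime l) (s : GQ)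
    (hs : s ∈ A.inertiaSubgroupIn ℚ) :
    dQ M m p H O S₀ 𝔪 (cyc M s ^ m) ^ l = dQ M m p H O S₀ 𝔪 (cyc M s ^ m) := by
  rw [← dQ_pow, ← pow_mul, mul_comm m l, pow_mul, cyc_pow_eq_self_of_inertia hl hlM hlM' A hA s hs]

/-! ### (C), (D) the determinant on inertia; no torsion -/

/-- **`hd`** : the cyclotomic character is trivial on inertia at `l ≠ p` -/
theorem eps_eq_one_of_inertia {l : ℕ} (hl : l.Prime) (hlp : l ≠ p) (A : ValuationSubring Qbar)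
    (hA : A.LiesOverPrime l) (s : GQ) (hs : s ∈ A.inertiaSubgroupIn ℚ) : eps p O s = 1 :=
  Fermat.Agent.S30.Algebra.Cyclotomic.cycChar_inertia p (algebraMap ℤ_[p] O) hl hlp A hA s hs

/-- **`htf`** : the localised module of record has no `a`-torsion, `a ≠ 0` in the domain `O` -/
theorem torsionFree_LamQ [IsLocalRing O] [IsNoetherianRing O]
    [IsAdicComplete (maximalIdeal O) O] [IsDomain O] (hM : 5 ≤ M) {a : O} (ha : a ≠ 0)
    (w : LamQ M m p H O S₀ 𝔪) (hw : a • w = 0) : w = 0 := by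
  have := free_LamQ M m p H O S₀ 𝔪 hM
  exact (smul_eq_zero.mp hw).resolve_left ha

end dia

/-! ### (E) the local types of `ρ_K` -/

section types

variable (M : ℕ) [NeZero M] (m : ℕ) (p : ℕ) [hp : Fact p.Prime] (H : Subgroup (ZMod M)ˣ)
  (O : Type) [CommRing O] [Algebra ℤ_[p] O] (S₀ : Finset ℕ)
  (𝔪 : Ideal (MvPolynomial (K M p S₀) O)) [𝔪.IsMaximal]
  [IsLocalRing O] [IsNoetherianRing O] [Module.Finite O (LamQ M m p H O S₀ 𝔪)]
  [IsMulCommutative ↥(TQ M m p H O S₀ 𝔪)] [IsLocalRing ↥(TQ M m p H O S₀ 𝔪)]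
  [IsLocalHom (algebraMap O ↥(TQ M m p H O S₀ 𝔪))] [Invertible (2 : ↥(TQ M m p H O S₀ 𝔪))]

attribute [local instance] Glue.smulCommClassT Glue.algebraEnd

variable {Sg : Finset ℕ}
  (h : Dens.Datum Sg (maximalIdeal O) (rQ M m p H O S₀ 𝔪) (eps p O) (TQ M m p H O S₀ 𝔪))
  {c g₀ h₀ : GQ}
  (hin : CH.Input (E := Module.End ↥(TQ M m p H O S₀ 𝔪) (LamQ M m p H O S₀ 𝔪)) (Dens.rT h)
    (Dens.tT h) (Glue.dHom (eps p O) (TQ M m p H O S₀ 𝔪)) c g₀ h₀)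
  {l : ℕ} (hl : l.Prime) (hlp : l ≠ p) (hlM : l ∣ M) (hlM' : ¬ l ∣ M / l)
  (hpO : (p : O) ∈ maximalIdeal O)
  (rbar : ResidualGaloisRep (ResidueField O))
  (b : Module.Basis (Fin 2) (ResidueField O) rbar.V)
  (hmap : mapMat (residue ↥(TQ M m p H O S₀ 𝔪)) (CH.rep hin) =
    mapMat (ResidueField.map (algebraMap O ↥(TQ M m p H O S₀ 𝔪))) (resMatOf rbar b))

include hl hlp hlM hlM' hpO hmap in
/-- **THE INERTIAL TYPE OF `ρ_K` AT `l ∥ M`, `l ≠ p`** : `charpoly ρ_K(s) = (X - ⟨d⟩)(X - ⟨d⟩⁻¹)`,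
`d = cyc M s ^ m`, from the gate cubic (`Rho/Feed/GateAt.rQ_cubic_D_at`) -/
theorem charpoly_rhoT_inertia (hunr : rbar.IsUnramifiedAt l)
    (htf : ∀ w : LamQ M m p H O S₀ 𝔪, ((l : O) ^ 2 - 1) • w = 0 → w = 0)
    (A : ValuationSubring Qbar) (hA : A.LiesOverPrime l) (s : GQ)
    (hs : s ∈ A.inertiaSubgroupIn ℚ)
    (hcube : (rQ M m p H O S₀ 𝔪 s -
          (dQ M m p H O S₀ 𝔪 (cyc M s ^ m) : TQ M m p H O S₀ 𝔪)) *
        (rQ M m p H O S₀ 𝔪 s -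
          (dQ M m p H O S₀ 𝔪 (cyc M s ^ m) : TQ M m p H O S₀ 𝔪)) *
      (rQ M m p H O S₀ 𝔪 s -
          (dQ M m p H O S₀ 𝔪 (cyc M s ^ m)⁻¹ : TQ M m p H O S₀ 𝔪)) = 0) :
    LinearMap.charpoly ((Det.rhoT h hin).ρ s) =
      (X - C (dQ M m p H O S₀ 𝔪 (cyc M s ^ m))) * (X - C (dQ M m p H O S₀ 𝔪 (cyc M s ^ m)⁻¹)) :=
  TypeDatum.charpoly_rhoT_of_gate h hin hl hp.out hlp.symm hpO rbar b hmap hunr hA hs _ _
    (dQ_mul_inv M m p H O S₀ 𝔪 _) (eps_eq_one_of_inertia p O hl hlp A hA s hs) hcube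
    (dQ_cyc_pow_self M m p H O S₀ 𝔪 hl hlM hlM' A hA s hs) htf

include hl hlp hlM hlM' hpO hmap in
/-- **`tr ρ_K(s) = ⟨d⟩ + ⟨d⟩⁻¹`**, `d = cyc M s ^ m` -/
theorem trace_rhoT_inertia (hunr : rbar.IsUnramifiedAt l)
    (htf : ∀ w : LamQ M m p H O S₀ 𝔪, ((l : O) ^ 2 - 1) • w = 0 → w = 0)
    (A : ValuationSubring Qbar) (hA : A.LiesOverPrime l) (s : GQ)
    (hs : s ∈ A.inertiaSubgroupIn ℚ)
    (hcube : (rQ M m p H O S₀ 𝔪 s -
          (dQ M m p H O S₀ 𝔪 (cyc M s ^ m) : TQ M m p H O S₀ 𝔪)) *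
        (rQ M m p H O S₀ 𝔪 s -
          (dQ M m p H O S₀ 𝔪 (cyc M s ^ m) : TQ M m p H O S₀ 𝔪)) *
      (rQ M m p H O S₀ 𝔪 s -
          (dQ M m p H O S₀ 𝔪 (cyc M s ^ m)⁻¹ : TQ M m p H O S₀ 𝔪)) = 0) :
    (Det.rhoT h hin).trace s =
      dQ M m p H O S₀ 𝔪 (cyc M s ^ m) + dQ M m p H O S₀ 𝔪 (cyc M s ^ m)⁻¹ :=
  TypeDatum.trace_rhoT_of_gate h hin hl hp.out hlp.symm hpO rbar b hmap hunr hA hs _ _
    (dQ_mul_inv M m p H O S₀ 𝔪 _) (eps_eq_one_of_inertia p O hl hlp A hA s hs) hcube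
    (dQ_cyc_pow_self M m p H O S₀ 𝔪 hl hlM hlM' A hA s hs) htf

include hl hlp hlM hlM' hpO hmap in
/-- **the sign-free display `tr ρ_K(s²) = ⟨d⟩² + ⟨d⟩⁻²`**, `d = cyc M s ^ m` -/
theorem trace_sq_rhoT_inertia (hunr : rbar.IsUnramifiedAt l)
    (htf : ∀ w : LamQ M m p H O S₀ 𝔪, ((l : O) ^ 2 - 1) • w = 0 → w = 0)
    (A : ValuationSubring Qbar) (hA : A.LiesOverPrime l) (s : GQ)
    (hs : s ∈ A.inertiaSubgroupIn ℚ)
    (hcube : (rQ M m p H O S₀ 𝔪 s -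
          (dQ M m p H O S₀ 𝔪 (cyc M s ^ m) : TQ M m p H O S₀ 𝔪)) *
        (rQ M m p H O S₀ 𝔪 s -
          (dQ M m p H O S₀ 𝔪 (cyc M s ^ m) : TQ M m p H O S₀ 𝔪)) *
      (rQ M m p H O S₀ 𝔪 s -
          (dQ M m p H O S₀ 𝔪 (cyc M s ^ m)⁻¹ : TQ M m p H O S₀ 𝔪)) = 0) :
    (Det.rhoT h hin).trace (s * s) =
      dQ M m p H O S₀ 𝔪 (cyc M s ^ m) * dQ M m p H O S₀ 𝔪 (cyc M s ^ m) +
        dQ M m p H O S₀ 𝔪 (cyc M s ^ m)⁻¹ * dQ M m p H O S₀ 𝔪 (cyc M s ^ m)⁻¹ :=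
  TypeDatum.trace_sq_rhoT_of_gate h hin hl hp.out hlp.symm hpO rbar b hmap hunr hA hs _ _
    (dQ_mul_inv M m p H O S₀ 𝔪 _) (eps_eq_one_of_inertia p O hl hlp A hA s hs) hcube
    (dQ_cyc_pow_self M m p H O S₀ 𝔪 hl hlM hlM' A hA s hs) htf

include hl hlp hpO hmap in
/-- **`ρ_K` IS UNIPOTENT ON INERTIA AT `l`** (`ρ̄` unramified at `l`) from the unipotent cubic
(`Rho/Feed/GateAt.rQ_unipotent_D_at` : the diamonds of inertia at `l` lie in `H`) -/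
theorem isUnipotentOnInertiaAt_rhoT_of_cube (hunr : rbar.IsUnramifiedAt l)
    (htf : ∀ w : LamQ M m p H O S₀ 𝔪, ((l : O) ^ 2 - 1) • w = 0 → w = 0)
    (hcube : ∀ A : ValuationSubring Qbar, A.LiesOverPrime l →
      ∀ s ∈ A.inertiaSubgroupIn ℚ, (rQ M m p H O S₀ 𝔪 s - 1) * (rQ M m p H O S₀ 𝔪 s - 1) *
        (rQ M m p H O S₀ 𝔪 s - 1) = 0) :
    (Det.rhoT h hin).IsUnipotentOnInertiaAt l :=
  TypeDatum.isUnipotentOnInertiaAt_rhoT h hin hl hp.out hlp.symm hpO rbar b hmap hunr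
    (fun A hA s hs => eps_eq_one_of_inertia p O hl hlp A hA s hs) hcube htf

include hpO hmap in
/-- **`ρ_K` IS UNIPOTENT ON INERTIA AT `2`** (`ρ̄` only unipotent on inertia at `2`; `3` a unit of
`O`) from the unipotent cubic (`Rho/Feed/GateAt.rQ_unipotent_two_D_at`) -/
theorem isUnipotentOnInertiaAt_rhoT_two (hp2 : p ≠ 2) (h3 : IsUnit (3 : O))
    (hunip : ∀ A : ValuationSubring Qbar, A.LiesOverPrime 2 →
      ∀ s ∈ A.inertiaSubgroupIn ℚ, (rbar.ρ s - 1) * (rbar.ρ s - 1) = 0)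
    (hcube : ∀ A : ValuationSubring Qbar, A.LiesOverPrime 2 →
      ∀ s ∈ A.inertiaSubgroupIn ℚ, (rQ M m p H O S₀ 𝔪 s - 1) * (rQ M m p H O S₀ 𝔪 s - 1) *
        (rQ M m p H O S₀ 𝔪 s - 1) = 0) :
    (Det.rhoT h hin).IsUnipotentOnInertiaAt 2 :=
  TypeDatum.isUnipotentOnInertiaAt_rhoT_two h hin hp.out hpO rbar b hmap hp2 h3 hunip
    (fun A hA s hs => eps_eq_one_of_inertia p O Nat.prime_two (Ne.symm hp2) A hA s hs) hcube

end types

end Fermat.Agent.S43.Rho.Feed.GateType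

end
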