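/-
PROJECT R (S43), block RS / L1 (helper18): **`hdisp₁`, `hdispχ` OF `FeedQ.nonempty_datumJ_Q` ON THE
MODULE OF RECORD** (`Rho/LamInstD`): `RSide/DispPush.hdisp_of_trace` instantiated on helper22's
`TQ M m p H O S₀ 𝔪` with helper15's `Rho/Feed/GateType.trace_sq_rhoT_inertia`.

`T' ≤ TQ` ANY subalgebra with its own density datum `h'` (the trace algebra `TQtr` of `Rho/MainD`),
`Φ : TQ →+* End(M)` helper24's bridge (`Hecke/BridgeSide.exists_Phi`), `τ` in an inertia group at a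
Taylor--Wiles prime `l ∥ M`, `d := cyc M τ ^ m`.  If `Φ (dQ d) = single (π d) 1 •` (clauses (5), (6)
of `exists_Phi`; on the `χ`-side `ψ d = 1`) and `π d` is the `i`-th generator `η i` or its inverse
(`Assembly/TwTau.exists_tau`), then `b := t_{T'}(τ²) - 2 ∈ T'` satisfies
`Φ (incl b) x = γ (sq O (X i)) • x`: the conclusion of `hdisp₁` / `hdispχ`, letter for letter, at
`R := ↥T'`, `Φ₁ := Φ.comp (Subalgebra.inclusion hle).toRingHom`.  The gate cubic is a HYPOTHESIS in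
the shape of helper7's `Rho/Feed/GateLevel.rQ_cubic_D_prime`.
-/
import Mathlib
import Fermat.Agent.S43.Rho.Feed.GateType
import Fermat.Agent.S43.RSide.DispPush

set_option autoImplicit false
set_option linter.unusedSectionVars false

noncomputable section

namespace Fermat.Agent.S43.Rho.Feed.DispInst

open Polynomial IsLocalRing
open Fermat.Agent.S43.Rho Fermat.Agent.S43.Rho.Props
open Fermat.Agent.S43.Rho.Lam Fermat.Agent.S43.Hecke.PolyModule Fermat.Agent.S43.Rho.LamDatum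
open Fermat.Agent.S43.Rho.Feed.Inst Fermat.Agent.S43.Rho.Feed.Base
open Fermat.Agent.S43.Rho.LamInstD
open Fermat.Agent.S43.Tw.Defs (cyc)
open Fermat.Agent.S31.Core (Qbar GQ)
open Fermat.Agent.S53.Dictionary (mapMat resMatOf)
open Fermat.Agent.S43.Patch.GroupRing Fermat.Agent.S43.Patch.GroupRingInv
  Fermat.Agent.S43.Patch.EvenOdd
open Fermat.Agent.S43.Rho.Feed.GateType Fermat.Agent.S43.RSide.DispPush
open scoped IsMulCommutative

variable (M : ℕ) [NeZero M] (m : ℕ) (p : ℕ) [hp : Fact p.Prime] (H : Subgroup (ZMod M)ˣ)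
  (O : Type) [CommRing O] [Algebra ℤ_[p] O] (S₀ : Finset ℕ)
  (𝔪 : Ideal (MvPolynomial (K M p S₀) O)) [𝔪.IsMaximal]
  [IsLocalRing O] [IsNoetherianRing O] [Module.Finite O (LamQ M m p H O S₀ 𝔪)]
  [IsMulCommutative ↥(TQ M m p H O S₀ 𝔪)] [IsLocalRing ↥(TQ M m p H O S₀ 𝔪)]
  [IsLocalHom (algebraMap O ↥(TQ M m p H O S₀ 𝔪))] [Invertible (2 : ↥(TQ M m p H O S₀ 𝔪))]

attribute [local instance] Glue.smulCommClassT Glue.algebraEnd

variable {Sg : Finset ℕ}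
  (h : Dens.Datum Sg (maximalIdeal O) (rQ M m p H O S₀ 𝔪) (eps p O) (TQ M m p H O S₀ 𝔪))
  {c g₀ h₀ : GQ}
  (hin : CH.Input (E := Module.End ↥(TQ M m p H O S₀ 𝔪) (LamQ M m p H O S₀ 𝔪)) (Dens.rT h)
    (Dens.tT h) (Glue.dHom (eps p O) (TQ M m p H O S₀ 𝔪)) c g₀ h₀)
  {T' : Subalgebra O (Module.End O (LamQ M m p H O S₀ 𝔪))} [IsMulCommutative ↥T']
  (h' : Dens.Datum Sg (maximalIdeal O) (rQ M m p H O S₀ 𝔪) (eps p O) T')
  (hle : T' ≤ TQ M m p H O S₀ 𝔪)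
  {l : ℕ} (hl : l.Prime) (hlp : l ≠ p) (hlM : l ∣ M) (hlM' : ¬ l ∣ M / l)
  (hpO : (p : O) ∈ maximalIdeal O)
  (rbar : ResidualGaloisRep (ResidueField O))
  (b : Module.Basis (Fin 2) (ResidueField O) rbar.V)
  (hmap : mapMat (residue ↥(TQ M m p H O S₀ 𝔪)) (CH.rep hin) =
    mapMat (ResidueField.map (algebraMap O ↥(TQ M m p H O S₀ 𝔪))) (resMatOf rbar b))

/-- the trace function does not depend on the subalgebra -/
theorem inclusion_tT (g : GQ) : Subalgebra.inclusion hle (Dens.tT h' g) = Dens.tT h g :=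
  Subtype.ext rfl

include hin h' hl hlp hlM hlM' hpO hmap in
/-- **`hdisp` on the module of record**, one Taylor--Wiles prime `l`, one side `Φ` -/
theorem hdisp_TQ (hunr : rbar.IsUnramifiedAt l)
    (htf : ∀ w : LamQ M m p H O S₀ 𝔪, ((l : O) ^ 2 - 1) • w = 0 → w = 0)
    (A : ValuationSubring Qbar) (hA : A.LiesOverPrime l) (τ : GQ)
    (hτ : τ ∈ A.inertiaSubgroupIn ℚ)
    (hcube : (rQ M m p H O S₀ 𝔪 τ -
          (dQ M m p H O S₀ 𝔪 (cyc M τ ^ m) : TQ M m p H O S₀ 𝔪)) *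
        (rQ M m p H O S₀ 𝔪 τ -
          (dQ M m p H O S₀ 𝔪 (cyc M τ ^ m) : TQ M m p H O S₀ 𝔪)) *
      (rQ M m p H O S₀ 𝔪 τ -
          (dQ M m p H O S₀ 𝔪 (cyc M τ ^ m)⁻¹ : TQ M m p H O S₀ 𝔪)) = 0)
    {Δ : Type*} [CommGroup Δ] (π : (ZMod M)ˣ →* Δ) {r : ℕ}
    (γ : MvPowerSeries (Fin r) O →ₐ[O] MonoidAlgebra O Δ) (η : Fin r → Δ)
    (hγ : ∀ i, γ (MvPowerSeries.X i) = zel O η i) (i : Fin r)
    (hη : η i = π (cyc M τ ^ m) ∨ η i = (π (cyc M τ ^ m))⁻¹)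
    {M1 : Type*} [AddCommGroup M1] [Module (MonoidAlgebra O Δ) M1]
    {A' : Type*} [Semiring A'] [Module A' M1]
    (Φ : ↥(TQ M m p H O S₀ 𝔪) →+* Module.End A' M1)
    (hΦd : ∀ x : M1, Φ (dQ M m p H O S₀ 𝔪 (cyc M τ ^ m)) x =
      (MonoidAlgebra.single (π (cyc M τ ^ m)) (1 : O) : MonoidAlgebra O Δ) • x) :
    ∃ b : ↥T', ∀ x : M1,
      (Φ.comp (Subalgebra.inclusion hle).toRingHom) b x =
        γ (sq O (MvPowerSeries.X i)) • x := by
  have h1 := trace_sq_rhoT_inertia M m p H O S₀ 𝔪 h hin hl hlp hlM hlM' hpO rbar b hmap hunr htf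
    A hA τ hτ hcube
  rw [Det.trace_rhoT] at h1
  exact hdisp_of_trace γ η hγ (Subalgebra.inclusion hle).toRingHom Φ
    (Φ.comp (Subalgebra.inclusion hle).toRingHom) (fun _ => rfl) i (Dens.tT h' (τ * τ))
    (dQ M m p H O S₀ 𝔪 (cyc M τ ^ m)) (dQ M m p H O S₀ 𝔪 (cyc M τ ^ m)⁻¹)
    (dQ_mul_inv M m p H O S₀ 𝔪 _)
    ((inclusion_tT M m p H O S₀ 𝔪 h h' hle (τ * τ)).trans h1)
    (π (cyc M τ ^ m)) hη hΦd

end Fermat.Agent.S43.Rho.Feed.DispInst
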